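import Fermat.Agent.S48.Red1.Fin
import Fermat.Agent.S48.H828.IActTop
import Fermat.Agent.S48.H248.DegF1
import Fermat.Agent.S48.H908.Core1Top

/-!
# S48 / RES (Tower A1), sub-tower A1-RED: `Core1Top` (helper588)

The last black box of S48:

* `qepF1`    : `QepF1` (helper828's `iact_topLeaves_qep_F1`, `T₀ = {ζ_M}`);
* `mod1Hyp`  : `H908.Core1.Mod1Hyp` (node R4: the good family of models of `Q̄·F1(M)`);
* `core1Top` : `H556.Core1Top` (R6: helper908's case split through the levels `2M`, `3M`, with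
  helper248's `finHyp`, `degHyp`).
-/

set_option autoImplicit false

noncomputable section

namespace Fermat.Agent.S48.Red1

open ModularCurve AlgebraicCurve HahnSeries Fermat.Agent.S18 Fermat.Agent.S18.Alg
open Fermat.Agent.S18.Mod Fermat.Agent.S48.H248 Fermat.Agent.S48.F1

/-- **The `q`-expansion principle leaf** for `E·F1(M)`, `E ∋ ζ_M`. -/
theorem qepF1 : QepF1 := by
  intro M p _ hp hpM A hA
  have : Fact p.Prime := ⟨hp⟩
  refine ⟨{((Fermat.Agent.S48.H828.iactZeta M : Qbˣ) : Qb)}, fun E w₀ hE hT hunif => ?_⟩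
  have h := Fermat.Agent.S48.H828.iact_topLeaves_qep_F1 (E := E) hpM hA
    (hT _ (Finset.mem_singleton_self _)) hunif (full_le_F1 M)
  exact ⟨h.1, h.2⟩

/-- **R4**: the MOD deliverable for `F1 M` at the good levels. -/
theorem mod1Hyp : Fermat.Agent.S48.H908.Core1.Mod1Hyp := mod1Hyp_of_qep qepF1

/-- **CORE1 (top form)**, unconditional. -/
theorem core1Top : Fermat.Agent.S48.H556.Core1Top :=
  Fermat.Agent.S48.H908.Core1.core1Top_of_good
    (Fermat.Agent.S48.H908.Core1.goodCore1_of_mod mod1Hyp Fermat.Agent.S48.H248.finHyp)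
    Fermat.Agent.S48.H248.degHyp

end Fermat.Agent.S48.Red1
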