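import Fermat.Agent.S48.Red1.Transport

/-!
# S48 / RES (Tower A1), sub-tower A1-RED: ASSEMBLY of the good family on `Ω' = Q̄ · F₀`
(helper588)

GENERIC in `F₀ ⊇ modularFunctionFieldFull M` (`F₀ = F1 M`, `F1p M 2`, `F1p M 3`, …), generated by
series with integer coefficients (`IntGen F₀`).

**Leaves** (everything else is proved here from S18 `node_mod`):

* `TopLeaves F₀ A E w₀ j` (for the number fields `E ⊇ T₀`, `w₀` a uniformiser of `A ∩ E`), all at
  the coordinate `j`: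
  - `finite`    : `E · F₀` is finite over `E(j)`;
  - `separable` : the residue field of the Gauss ring of `E · F₀` is separable over `κ(j̄)`;
  - `qep_fin`, `qep_inf` : the `q`-expansion principle for `E · F₀` (node IGUSA1);
* `H107.BranchJ107 (LcG F₀) j` : `Ω' / Q̄(j)` is unramified outside `0, 1728, ∞`, `e ≤ 3` over `0`,
  `e ≤ 2` over `1728` (node A1-BR, `H648.j_inputs_of_embedding`).

**Result** `goodFamily_top` : for every prime `ℓ ∤ M`, every `A` over `ℓ` and every admissible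
coordinate `x` of level `M` (`Mod.IsCoordinate M ℓ x S`: `j` for `ℓ ≥ 5`, `t₂` for `ℓ = 3`, `t₃` for
`ℓ = 2`) there is a good family on `Ω'` (coordinate `ι x`) which is concrete in the sense of
`GlueGen.lean`; hence (`coreGen_top`) the Kummer core `CoreGen F₀ A m` for all primes `m ≠ ℓ`.
-/

set_option autoImplicit false

noncomputable section

namespace Fermat.Agent.S48.Red1

open ModularCurve AlgebraicCurve HahnSeries Fermat.Agent.S18 Fermat.Agent.S18.Alg
open Fermat.Agent.S18.Mod Fermat.Agent.S48.H248 Fermat.Agent.S18.H107 Fermat.Agent.S48.H588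

/-- The leaves of the assembly at one number field `E` (see the module docstring). -/
structure TopLeaves (F₀ : IntermediateField ℚ (LaurentSeries ℚ)) (A : ValuationSubring Qb)
    (E : Subfield Qb) (w₀ : Qb) (j : OmG F₀) : Prop where
  finite : ∃ s : Finset (OmG F₀), (s : Set (OmG F₀)) ⊆ FcT F₀ E ∧
    ∀ f ∈ FcT F₀ E, f ∈ Submodule.span (ratField (EcG E (cstG F₀)) j) (s : Set (OmG F₀))
  separable : ∀ f ∈ VcT F₀ A E, ∃ P : Polynomial (OmG F₀),
    (∀ i, P.coeff i ∈ polyRing (RcG A E (cstG F₀)) j) ∧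
    P.eval f * (cstG F₀ w₀)⁻¹ ∈ VcT F₀ A E ∧ (Polynomial.derivative P).eval f ≠ 0 ∧
    ((Polynomial.derivative P).eval f)⁻¹ ∈ VcT F₀ A E
  qep_fin : ∀ b ∈ chart (FcT F₀ E) (RcG A E (cstG F₀)) j, b * (cstG F₀ w₀)⁻¹ ∈ VcT F₀ A E →
    b * (cstG F₀ w₀)⁻¹ ∈ chart (FcT F₀ E) (RcG A E (cstG F₀)) j
  qep_inf : ∀ b ∈ chart (FcT F₀ E) (RcG A E (cstG F₀)) j⁻¹, b * (cstG F₀ w₀)⁻¹ ∈ VcT F₀ A E →
    b * (cstG F₀ w₀)⁻¹ ∈ chart (FcT F₀ E) (RcG A E (cstG F₀)) j⁻¹

variable {M : ℕ} {F₀ : IntermediateField ℚ (LaurentSeries ℚ)}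
  (hle : modularFunctionFieldFull M ≤ F₀)

/-- The step `Ω → Ω'` at the coordinate `j`, from the leaves. -/
theorem stepQ_of_leaves (hF₀ : IntGen F₀) {A : ValuationSubring Qb}
    {E : IntermediateField ℚ Qb} {w₀ : Qb} (hunif : IsUnifG A E.toSubfield w₀)
    (hL : TopLeaves F₀ A E.toSubfield w₀ (iotaG M F₀ hle (jOm M))) :
    StepQ (iotaG M F₀ hle) (Lc M) (Ec M E) (Fc M E) (Rc M A E) (Mod.H216.Vc M A E)
      (algebraMap Qb (Om M) w₀) (jOm M) (FcT F₀ E.toSubfield) (VcT F₀ A E.toSubfield) := by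
  have hEF : ∀ c ∈ E.toSubfield, cstG F₀ c ∈ FcT F₀ E.toSubfield := fun c hc => cstG_mem_FcT hc
  refine
    { F_le := Fc_map_le hle E
      compositum := ?_
      E_closed := ?_
      finite := ?_
      V_le := VRing_le A E.toSubfield (exG F₀) (FcT F₀ E.toSubfield)
      V_total := fun f hf => V_total (cstG F₀) (exG_cstG F₀) hEF hunif hf
        (isRatio_of_mem_FcT hF₀ A _ hf)
      V_le_V' := ?_
      w_inv_not_mem := ?_
      V_gen := ?_
      separable := ?_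
      qep_fin := ?_
      qep_inf := ?_ }
  · rw [Lc_map_iotaG]
    exact closure_FcT_union_LcG _
  · rw [Ec_map_iotaG]
    exact E_closed_FcT _
  · rw [Ec_map_iotaG]
    exact hL.finite
  · rintro _ ⟨f, hf, rfl⟩
    exact Vc_map_le hle A E hf
  · rw [iotaG_algebraMap]
    exact w_inv_not_mem_VRing (cstG F₀) (exG_cstG F₀) hunif.ne_zero hunif.inv_not_mem
  · rw [iotaG_algebraMap]
    exact fun f hf hinv => V_gen (cstG F₀) (exG_cstG F₀) hEF hunif hf hinv
  · rw [Rc_map_iotaG, iotaG_algebraMap]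
    exact hL.separable
  · rw [Rc_map_iotaG, iotaG_algebraMap]
    exact hL.qep_fin
  · rw [Rc_map_iotaG, iotaG_algebraMap]
    exact hL.qep_inf

theorem mem_map_pair {Ω Ω' : Type*} [Field Ω] [Field Ω'] (ι : Ω →+* Ω') {S : Finset Ω} {a b : Ω}
    (hS : ∀ s, s ∈ S ↔ s = a ∨ s = b) (s : Ω') :
    s ∈ S.map ⟨ι, ι.injective⟩ ↔ s = ι a ∨ s = ι b := by
  constructor
  · intro hs
    obtain ⟨s₀, hs₀, rfl⟩ := Finset.mem_map.mp hs
    rcases (hS s₀).mp hs₀ with rfl | rfl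
    · exact Or.inl rfl
    · exact Or.inr rfl
  · rintro (rfl | rfl)
    · exact Finset.mem_map.mpr ⟨a, (hS a).mpr (Or.inl rfl), rfl⟩
    · exact Finset.mem_map.mpr ⟨b, (hS b).mpr (Or.inr rfl), rfl⟩

variable [NeZero M] {ℓ : ℕ} [Fact ℓ.Prime]

/-- **The `j`-model at the top** (without the branch fields), for every `ℓ ∤ M`. -/
theorem baseModel_top (hF₀ : IntGen F₀) (hℓM : ¬ ℓ ∣ M) {A : ValuationSubring Qb}
    (hA : A.LiesOverPrime ℓ) {E : IntermediateField ℚ Qb} [FiniteDimensional ℚ E] {w₀ : Qb}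
    (hR : Mod.H216.PartR (Ec M E) (Rc M A E) (algebraMap Qb (Om M) w₀))
    (hunif : IsUnifG A E.toSubfield w₀)
    (hL : TopLeaves F₀ A E.toSubfield w₀ (iotaG M F₀ hle (jOm M))) :
    BaseModel107 (LcG F₀) (EcG E.toSubfield (cstG F₀)) (FcT F₀ E.toSubfield)
      (RcG A E.toSubfield (cstG F₀)) (VcT F₀ A E.toSubfield) (cstG F₀ w₀)
      (iotaG M F₀ hle (jOm M)) := by
  have hb := Fermat.Agent.S18.H24.baseModel_j M A E hℓM hA hR
  have h := baseModel_stepQ hb (stepQ_of_leaves hle hF₀ hunif hL)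
  rwa [Lc_map_iotaG, Ec_map_iotaG, Rc_map_iotaG, iotaG_algebraMap] at h

/-- **The good model at the top**, for every admissible coordinate. -/
theorem goodModel_top (hF₀ : IntGen F₀) (hℓM : ¬ ℓ ∣ M) {A : ValuationSubring Qb}
    (hA : A.LiesOverPrime ℓ) {x : Om M} {S : Finset (Om M)} (hx : IsCoordinate M ℓ x S)
    {E : IntermediateField ℚ Qb} [FiniteDimensional ℚ E] {w₀ : Qb}
    (hg : GoodModel (Lc M) (Ec M E) (Fc M E) (Rc M A E) (Mod.H216.Vc M A E)
      (algebraMap Qb (Om M) w₀) x S)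
    (hL : TopLeaves F₀ A E.toSubfield w₀ (iotaG M F₀ hle (jOm M)))
    (hbr : BranchJ107 (LcG F₀) (iotaG M F₀ hle (jOm M))) :
    GoodModel (LcG F₀) (EcG E.toSubfield (cstG F₀)) (FcT F₀ E.toSubfield)
      (RcG A E.toSubfield (cstG F₀)) (VcT F₀ A E.toSubfield) (cstG F₀ w₀)
      (iotaG M F₀ hle x) (S.map ⟨iotaG M F₀ hle, (iotaG M F₀ hle).injective⟩) := by
  set ι := iotaG M F₀ hle with hι
  have hR : Mod.H216.PartR (Ec M E) (Rc M A E) (algebraMap Qb (Om M) w₀) :=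
    ⟨hg.R_le, hg.R_total, hg.w_mem, hg.w_ne_zero, hg.w_inv_not_mem, hg.w_gen, hg.w_discrete,
      hg.residue_perfect⟩
  obtain ⟨w₁, hw₁, hunif'⟩ := exists_isUnifG hR
  have hw₁' : w₁ = w₀ := (algebraMap Qb (Om M)).injective hw₁
  have hunif : IsUnifG A E.toSubfield w₀ := hw₁' ▸ hunif'
  have hb := baseModel_top hle hF₀ hℓM hA hR hunif hL
  have hVV : (Mod.H216.Vc M A E).map ι ≤ VcT F₀ A E.toSubfield := by
    rintro _ ⟨f, hf, rfl⟩
    exact Vc_map_le hle A E hf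
  have hgauss : ∀ P : Polynomial (OmG F₀), (∀ i, P.coeff i ∈ RcG A E.toSubfield (cstG F₀)) →
      (∃ i, P.coeff i ≠ 0 ∧ (P.coeff i)⁻¹ ∈ RcG A E.toSubfield (cstG F₀)) →
      (P.eval (ι x))⁻¹ ∈ VcT F₀ A E.toSubfield := by
    have h := gauss_stepQ (ι := ι) (baseModel_of_goodModel107 hg) hVV
    rwa [Rc_map_iotaG] at h
  have hxF : ι x ∈ FcT F₀ E.toSubfield := Fc_map_le hle E ⟨x, hg.x_mem, rfl⟩
  have hxV : ι x ∈ VcT F₀ A E.toSubfield := hVV ⟨x, hg.x_mem_V, rfl⟩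
  have hRmem : ∀ r ∈ Rc M A E, ι r ∈ RcG A E.toSubfield (cstG F₀) := by
    intro r hr
    rw [← Rc_map_iotaG hle]
    exact ⟨r, hr, rfl⟩
  rcases hx with ⟨h5, hxj, hS⟩ | ⟨h | h, -⟩
  · -- `ℓ ≥ 5`, `x = j`
    subst hxj
    refine hb.toGoodModel _ ?_ ?_ ?_ ?_
    · intro s hs
      obtain ⟨s₀, hs₀, rfl⟩ := Finset.mem_map.mp hs
      exact hRmem _ (hg.S_mem s₀ hs₀)
    · intro s hs t ht hst
      obtain ⟨s₀, hs₀, rfl⟩ := Finset.mem_map.mp hs
      obtain ⟨t₀, ht₀, rfl⟩ := Finset.mem_map.mp ht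
      have hne : s₀ ≠ t₀ := fun he => hst (by rw [he])
      have := hRmem _ (hg.S_distinct s₀ hs₀ t₀ ht₀ hne)
      simpa [map_inv₀, map_sub] using this
    · intro s hs hs0
      obtain ⟨s₀, hs₀, rfl⟩ := Finset.mem_map.mp hs
      have hne : s₀ ≠ 0 := fun he => hs0 (by simp [he])
      have := hRmem _ (hg.S_unit s₀ hs₀ hne)
      simpa [map_inv₀] using this
    · intro O hO c hc hcS h1 h2 t ht ht'
      have hmem := mem_map_pair ι hS
      have hc0 : c ≠ 0 := by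
        rintro rfl
        exact hcS ((hmem 0).mpr (Or.inl (map_zero ι).symm))
      have hc1 : c ≠ 1728 := by
        rintro rfl
        exact hcS ((hmem 1728).mpr (Or.inr (map_ofNat ι 1728).symm))
      have := hbr.generic O hO c hc hc0 hc1 h1 h2 t ht ht'
      rwa [pow_one] at this
  · -- `ℓ = 3`, `x = t₂`
    obtain ⟨hℓ3, hrel, hS⟩ := h
    have h2 : (2 : OmG F₀)⁻¹ ∈ RcG A E.toSubfield (cstG F₀) := by
      have h4 := inv_natCast_mem_Rc107 M A E hA 4 1 (by rw [hℓ3])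
      have e : (2 : Om M)⁻¹ = 2 * ((4 : ℕ) : Om M)⁻¹ := by
        have := hg.charZero
        push_cast
        norm_num
      have h2' : (2 : Om M)⁻¹ ∈ Rc M A E := by
        rw [e]
        exact (Rc M A E).mul_mem (ofNat_mem _ 2) h4
      have := hRmem _ h2'
      rwa [map_inv₀, map_ofNat] at this
    have hrel' : ι (jOm M) * (ι x) ^ 2 = (ι x + 256) ^ 3 := by
      have := congrArg ι hrel
      rwa [map_mul, map_pow, map_pow, map_add, map_ofNat] at this
    refine goodModel_t2_107 hb hbr hrel' hxF hxV h2 hgauss ?_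
    intro s
    rw [mem_map_pair ι hS, map_zero, map_neg, map_ofNat]
  · -- `ℓ = 2`, `x = t₃`
    obtain ⟨hℓ2, hrel, hS⟩ := h
    have h3 : (3 : OmG F₀)⁻¹ ∈ RcG A E.toSubfield (cstG F₀) := by
      have h3' := inv_natCast_mem_Rc107 M A E hA 3 1 (by rw [hℓ2])
      have := hRmem _ h3'
      rwa [map_inv₀, map_natCast] at this
    have hrel' : ι (jOm M) * (ι x) ^ 3 = (ι x + 27) * (ι x + 243) ^ 3 := by
      have := congrArg ι hrel
      rwa [map_mul, map_pow, map_mul, map_pow, map_add, map_add, map_ofNat, map_ofNat] at this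
    refine goodModel_t3_107 hb hbr hrel' hxF hxV h3 hgauss ?_
    intro s
    rw [mem_map_pair ι hS, map_zero, map_neg, map_ofNat]

/-- The function field and the Gauss ring at the top over a member of the S18 family. -/
def PhiT (M : ℕ) (F₀ : IntermediateField ℚ (LaurentSeries ℚ)) (A : ValuationSubring Qb)
    (p : Model (Om M)) : Subfield (OmG F₀) × Subring (OmG F₀) :=
  (FcT F₀ (p.1.comap (algebraMap Qb (Om M))), VcT F₀ A (p.1.comap (algebraMap Qb (Om M))))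

omit [NeZero M] in
theorem PhiT_mono (A : ValuationSubring Qb) {p p' : Model (Om M)} (h : Model.le p p') :
    (PhiT M F₀ A p).1 ≤ (PhiT M F₀ A p').1 ∧ (PhiT M F₀ A p).2 ≤ (PhiT M F₀ A p').2 := by
  have hc : p.1.comap (algebraMap Qb (Om M)) ≤ p'.1.comap (algebraMap Qb (Om M)) :=
    fun c hc => h.1 hc
  exact ⟨FcT_mono hc, VcT_mono A hc⟩

/-- **ASSEMBLY.**  The good family on `Ω' = Q̄ · F₀`, concrete in the sense of `GlueGen.lean`. -/
theorem goodFamily_top (hF₀ : IntGen F₀) (hℓM : ¬ ℓ ∣ M) (A : ValuationSubring Qb)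
    (hA : A.LiesOverPrime ℓ) {x : Om M} {S : Finset (Om M)} (hx : IsCoordinate M ℓ x S)
    (T₀ : Finset Qb)
    (hleaf : ∀ (E : IntermediateField ℚ Qb) (w₀ : Qb), FiniteDimensional ℚ E →
      (∀ a ∈ T₀, a ∈ E) → IsUnifG A E.toSubfield w₀ →
      TopLeaves F₀ A E.toSubfield w₀ (iotaG M F₀ hle (jOm M)))
    (hbr : BranchJ107 (LcG F₀) (iotaG M F₀ hle (jOm M))) :
    ∃ 𝓕' : Set (Model (OmG F₀)),
      GoodFamily (LcG F₀) (iotaG M F₀ hle x)
        (S.map ⟨iotaG M F₀ hle, (iotaG M F₀ hle).injective⟩) 𝓕' ∧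
      ConcreteFamily F₀ A 𝓕' := by
  classical
  set ι := iotaG M F₀ hle with hι
  obtain ⟨𝓕, hsub, hfam, hT⟩ := Mod.H216.node_mod M hℓM A hA x S hx
  set T₁ : Finset (Om M) := T₀.image (algebraMap Qb (Om M)) with hT₁
  have hfam₀ := goodFamily_restrict hfam T₁ (by
    intro a ha
    obtain ⟨c, -, rfl⟩ := Finset.mem_image.mp ha
    exact ⟨c, rfl⟩)
  set 𝓕₀ : Set (Model (Om M)) := {p | p ∈ 𝓕 ∧ ∀ a ∈ T₁, a ∈ p.1} with h𝓕₀
  -- the shape of the members
  have hshape : ∀ p ∈ 𝓕₀, ∃ (E : IntermediateField ℚ Qb) (w₀ : Qb), FiniteDimensional ℚ E ∧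
      (∀ a ∈ T₀, a ∈ E) ∧
      p = (Ec M E, Fc M E, Rc M A E, Mod.H216.Vc M A E, algebraMap Qb (Om M) w₀) := by
    rintro ⟨Ec', Fc', R', V', w⟩ ⟨hp, hpT⟩
    obtain ⟨E, hfd, h1, h2, h3, h4⟩ := hsub hp
    simp only at h1 h2 h3 h4 hpT
    subst h1 h2 h3
    have hV : V' = Mod.H216.Vc M A E := SetLike.coe_injective h4
    subst hV
    have hg := hfam.good _ hp
    obtain ⟨w₀, hw₀, rfl⟩ := hg.w_mem
    refine ⟨E, w₀, hfd, fun a ha => ?_, rfl⟩
    have := hpT _ (Finset.mem_image_of_mem _ ha)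
    obtain ⟨c, hc, hca⟩ := this
    have : c = a := (algebraMap Qb (Om M)).injective hca
    exact this ▸ hc
  have hlift : ∀ (E : IntermediateField ℚ Qb) (w₀ : Qb),
      liftModel ι (PhiT M F₀ A)
        (Ec M E, Fc M E, Rc M A E, Mod.H216.Vc M A E, algebraMap Qb (Om M) w₀)
      = (EcG E.toSubfield (cstG F₀), FcT F₀ E.toSubfield, RcG A E.toSubfield (cstG F₀),
          VcT F₀ A E.toSubfield, cstG F₀ w₀) := by
    intro E w₀
    unfold liftModel PhiT
    simp only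
    rw [Ec_map_iotaG, Rc_map_iotaG, Ec_comap, iotaG_algebraMap]
  refine ⟨liftModel ι (PhiT M F₀ A) '' 𝓕₀, ?_, ?_⟩
  · have h := goodFamily_lift (ι := ι) hfam₀ (PhiT M F₀ A) (ι x)
      (S.map ⟨ι, ι.injective⟩) ?_ (fun p _ p' _ hpp => PhiT_mono A hpp)
    · rwa [Lc_map_iotaG] at h
    · intro p hp
      obtain ⟨E, w₀, hfd, hET, rfl⟩ := hshape p hp
      have hg := hfam.good _ hp.1
      have hR : Mod.H216.PartR (Ec M E) (Rc M A E) (algebraMap Qb (Om M) w₀) :=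
        ⟨hg.R_le, hg.R_total, hg.w_mem, hg.w_ne_zero, hg.w_inv_not_mem, hg.w_gen,
          hg.w_discrete, hg.residue_perfect⟩
      obtain ⟨w₁, hw₁, hunif'⟩ := exists_isUnifG hR
      have hw₁' : w₁ = w₀ := (algebraMap Qb (Om M)).injective hw₁
      have hunif : IsUnifG A E.toSubfield w₀ := hw₁' ▸ hunif'
      have htop := goodModel_top hle hF₀ hℓM hA hx hg (hleaf E w₀ hfd hET hunif) hbr
      have e := hlift E w₀
      rw [Lc_map_iotaG]
      have e1 := congrArg (fun q : Model (OmG F₀) => q.1) e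
      have e2 := congrArg (fun q : Model (OmG F₀) => q.2.1) e
      have e3 := congrArg (fun q : Model (OmG F₀) => q.2.2.1) e
      have e4 := congrArg (fun q : Model (OmG F₀) => q.2.2.2.1) e
      have e5 := congrArg (fun q : Model (OmG F₀) => q.2.2.2.2) e
      simp only [liftModel] at e1 e2 e3 e4 e5
      rw [e1, e2, e3, e4, e5]
      exact htop
  · -- concreteness
    have hmem : ∀ p' ∈ liftModel ι (PhiT M F₀ A) '' 𝓕₀, ∃ (E : IntermediateField ℚ Qb)
        (w₀ : Qb), p' = (EcG E.toSubfield (cstG F₀), FcT F₀ E.toSubfield,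
          RcG A E.toSubfield (cstG F₀), VcT F₀ A E.toSubfield, cstG F₀ w₀) := by
      rintro _ ⟨p, hp, rfl⟩
      obtain ⟨E, w₀, -, -, rfl⟩ := hshape p hp
      exact ⟨E, w₀, hlift E w₀⟩
    refine
      { exists_member := ?_
        E_const := ?_
        R_iff := ?_
        coeff_mem := ?_
        int_mem_V := ?_
        unit_V := ?_ }
    · intro f g
      obtain ⟨Tf, hTf⟩ := exists_finset_mem_FcT F₀ f
      obtain ⟨Tg, hTg⟩ := exists_finset_mem_FcT F₀ g
      obtain ⟨E, V, w, hfd, hTE, hV, hmemF⟩ := hT (Tf ∪ Tg ∪ T₀)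
      have hV' : V = Mod.H216.Vc M A E := SetLike.coe_injective hV
      subst hV'
      have hp₀ : ((Ec M E, Fc M E, Rc M A E, Mod.H216.Vc M A E, w) : Model (Om M)) ∈ 𝓕₀ := by
        refine ⟨hmemF, fun a ha => ?_⟩
        obtain ⟨c, hc, rfl⟩ := Finset.mem_image.mp ha
        exact ⟨c, hTE c (Finset.mem_union_right _ hc), rfl⟩
      refine ⟨_, ⟨_, hp₀, rfl⟩, ?_, ?_⟩
      · show f ∈ FcT F₀ ((Ec M E).comap (algebraMap Qb (Om M)))
        rw [Ec_comap]
        exact hTf _ (fun a ha =>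
          hTE a (Finset.mem_union_left _ (Finset.mem_union_left _ ha)))
      · show g ∈ FcT F₀ ((Ec M E).comap (algebraMap Qb (Om M)))
        rw [Ec_comap]
        exact hTg _ (fun a ha =>
          hTE a (Finset.mem_union_left _ (Finset.mem_union_right _ ha)))
    · intro p' hp' e he
      obtain ⟨E, w₀, rfl⟩ := hmem p' hp'
      obtain ⟨c, -, hc⟩ := (mem_EcG_iff _).mp he
      exact ⟨c, hc⟩
    · intro p' hp' a
      obtain ⟨E, w₀, rfl⟩ := hmem p' hp'
      show cstG F₀ a ∈ RcG A E.toSubfield (cstG F₀) ↔ a ∈ A ∧ cstG F₀ a ∈ EcG E.toSubfield (cstG F₀)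
      rw [cst_mem_RcG_iff]
      constructor
      · rintro ⟨h1, h2⟩
        exact ⟨h1, (mem_EcG_iff _).mpr ⟨a, h2, rfl⟩⟩
      · rintro ⟨h1, h2⟩
        obtain ⟨c, hc, hca⟩ := (mem_EcG_iff _).mp h2
        have : c = a := (cstG F₀).injective hca
        exact ⟨h1, this ▸ hc⟩
    · intro p' hp' f hf n
      obtain ⟨E, w₀, rfl⟩ := hmem p' hp'
      exact (mem_EcG_iff _).mpr ⟨_, coeff_mem_of_mem_FcT hf n, rfl⟩
    · intro p' hp' f hf hA'
      obtain ⟨E, w₀, rfl⟩ := hmem p' hp'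
      exact mem_VcT_of_coeff_mem hf hA'
    · intro p' hp' f hf U hfU hU
      obtain ⟨E, w₀, rfl⟩ := hmem p' hp'
      exact inv_mem_VcT hf U hfU hU

end Fermat.Agent.S48.Red1
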