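import Fermat.Agent.S48.Red1.Objects
import Fermat.Agent.S18.H24.NodeMod
import Fermat.Agent.S18.Mod.H216.NodeMod
import Fermat.Agent.S18.H107.M3T

/-!
# S48 / RES (Tower A1), sub-tower A1-RED: from the `Γ₀(M)`-models of S18 to the models on
`Ω' = Q̄ · F₀` (helper588)

`F₀ ⊇ modularFunctionFieldFull M`, `ι = iotaG : Om M → OmG F₀` the inclusion.  Images under `ι`
of the concrete objects of `S18/Mod/Defs.lean`, the uniformiser, descent to number fields and the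
elementary properties of the Gauss ring `VcT` needed by the glue (`ConcreteFamily`).
-/

set_option autoImplicit false

noncomputable section

namespace Fermat.Agent.S48.Red1

open ModularCurve AlgebraicCurve HahnSeries Fermat.Agent.S18 Fermat.Agent.S18.Alg
open Fermat.Agent.S18.Mod Fermat.Agent.S48.H248

variable (M : ℕ) (F₀ : IntermediateField ℚ (LaurentSeries ℚ))
  (hle : modularFunctionFieldFull M ≤ F₀)

/-- The inclusion `Ω = Q̄ · F_full(M) → Ω' = Q̄ · F₀`. -/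
def iotaG : Om M →+* OmG F₀ := (Fermat.Agent.S48.F1.inclBar Qb hle).toRingHom

variable {M F₀}

@[simp] theorem coe_iotaG (f : Om M) :
    ((iotaG M F₀ hle f : OmG F₀) : LaurentSeries Qb) = (f : LaurentSeries Qb) :=
  Fermat.Agent.S48.F1.coe_inclBar Qb hle f

theorem iotaG_algebraMap (c : Qb) : iotaG M F₀ hle (algebraMap Qb (Om M) c) = cstG F₀ c :=
  (Fermat.Agent.S48.F1.inclBar Qb hle).commutes c

theorem Lc_map_iotaG : (Lc M).map (iotaG M F₀ hle) = LcG F₀ := by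
  ext y
  constructor
  · rintro ⟨_, ⟨c, rfl⟩, rfl⟩
    exact ⟨c, (iotaG_algebraMap hle c).symm⟩
  · rintro ⟨c, rfl⟩
    exact ⟨algebraMap Qb (Om M) c, ⟨c, rfl⟩, iotaG_algebraMap hle c⟩

theorem Ec_map_iotaG (E : IntermediateField ℚ Qb) :
    (Ec M E).map (iotaG M F₀ hle) = EcG E.toSubfield (cstG F₀) := by
  ext y
  constructor
  · rintro ⟨_, ⟨c, hc, rfl⟩, rfl⟩
    exact (mem_EcG_iff _).mpr ⟨c, hc, (iotaG_algebraMap hle c).symm⟩
  · intro hy
    obtain ⟨c, hc, rfl⟩ := (mem_EcG_iff _).mp hy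
    exact ⟨algebraMap Qb (Om M) c, ⟨c, hc, rfl⟩, iotaG_algebraMap hle c⟩

theorem Rc_map_iotaG (A : ValuationSubring Qb) (E : IntermediateField ℚ Qb) :
    (Rc M A E).map (iotaG M F₀ hle) = RcG A E.toSubfield (cstG F₀) := by
  ext y
  constructor
  · rintro ⟨_, ⟨c, hc, rfl⟩, rfl⟩
    exact (mem_RcG_iff _).mpr ⟨c, hc.1, hc.2, (iotaG_algebraMap hle c).symm⟩
  · intro hy
    obtain ⟨c, hcA, hcE, rfl⟩ := (mem_RcG_iff _).mp hy
    exact ⟨algebraMap Qb (Om M) c, ⟨c, ⟨hcA, hcE⟩, rfl⟩, iotaG_algebraMap hle c⟩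

theorem Ec_comap (E : IntermediateField ℚ Qb) :
    (Ec M E).comap (algebraMap Qb (Om M)) = E.toSubfield := by
  ext c
  constructor
  · rintro ⟨c', hc', h⟩
    have : c' = c := (algebraMap Qb (Om M)).injective h
    exact this ▸ hc'
  · intro hc
    exact ⟨c, hc, rfl⟩

theorem iotaG_jd (d : ℕ) [NeZero d] (hd : d ∣ M) :
    iotaG M F₀ hle (jd M d hd) = embG F₀ ⟨qExpand ℚ d jq, hle (jqd_mem_full M hd)⟩ :=
  Subtype.ext (by rw [coe_iotaG]; rfl)

theorem Fc_map_le (E : IntermediateField ℚ Qb) :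
    (Fc M E).map (iotaG M F₀ hle) ≤ FcT F₀ E.toSubfield := by
  rw [Subfield.map_le_iff_le_comap]
  unfold Fc
  rw [Subfield.closure_le]
  rintro y (hy | hy)
  · obtain ⟨c, hc, rfl⟩ := hy
    show iotaG M F₀ hle _ ∈ FcT F₀ E.toSubfield
    rw [iotaG_algebraMap]
    exact cstG_mem_FcT hc
  · obtain ⟨d, hd, hdM, rfl⟩ := hy
    show iotaG M F₀ hle _ ∈ FcT F₀ E.toSubfield
    rw [iotaG_jd]
    exact embG_mem_FcT _ _

include hle in
theorem isInt_of_isIntE {A : ValuationSubring Qb} {E : IntermediateField ℚ Qb}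
    {U : LaurentSeries A} (hU : IsIntE M A E U) :
    IsInt A E.toSubfield (exG F₀) (FcT F₀ E.toSubfield) U := by
  obtain ⟨h1, f, hf, hfU⟩ := hU
  exact ⟨h1, iotaG M F₀ hle f, Fc_map_le hle E ⟨f, hf, rfl⟩, by
    rw [exG_apply, coe_iotaG]; exact hfU⟩

theorem Vc_map_le (A : ValuationSubring Qb) (E : IntermediateField ℚ Qb) {f : Om M}
    (hf : f ∈ VcSet M A E) : iotaG M F₀ hle f ∈ VcT F₀ A E.toSubfield := by
  obtain ⟨hfF, U₁, U₂, h₁, h₂, hr, hfU⟩ := hf
  refine ⟨Fc_map_le hle E ⟨f, hfF, rfl⟩, U₁, U₂, isInt_of_isIntE hle h₁, isInt_of_isIntE hle h₂,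
    hr, ?_⟩
  rw [exG_apply, coe_iotaG]
  exact hfU

/-! ### The uniformiser -/

/-- The uniformiser of a `Γ₀(M)`-model is the image of a uniformiser `w₀` of `A ∩ E`. -/
theorem exists_isUnifG {A : ValuationSubring Qb} {E : IntermediateField ℚ Qb} {w : Om M}
    (hR : Mod.H216.PartR (Ec M E) (Rc M A E) w) :
    ∃ w₀ : Qb, algebraMap Qb (Om M) w₀ = w ∧ IsUnifG A E.toSubfield w₀ := by
  have hinj : Function.Injective (algebraMap Qb (Om M)) := (algebraMap Qb (Om M)).injective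
  have hmem : ∀ c : Qb, algebraMap Qb (Om M) c ∈ Rc M A E ↔ c ∈ A ∧ c ∈ E := by
    intro c
    constructor
    · rintro ⟨c', hc', h⟩
      have : c' = c := hinj h
      exact this ▸ hc'
    · intro hc
      exact ⟨c, hc, rfl⟩
  obtain ⟨w₀, hw₀, rfl⟩ := hR.w_mem
  refine ⟨w₀, rfl, hw₀.1, hw₀.2, ?_, ?_, ?_⟩
  · rintro rfl
    exact hR.w_ne_zero (map_zero _)
  · intro h
    apply hR.w_inv_not_mem
    rw [← map_inv₀, hmem]
    exact ⟨h, E.toSubfield.inv_mem hw₀.2⟩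
  · intro c hcA hcE hc0
    obtain ⟨n, h1, h2⟩ := hR.w_discrete (algebraMap Qb (Om M) c) ((hmem c).mpr ⟨hcA, hcE⟩)
      ((map_ne_zero _).mpr hc0)
    refine ⟨n, ?_, ?_⟩
    · rw [← map_inv₀, ← map_pow, ← map_mul, hmem] at h1
      exact h1.1
    · rw [← map_inv₀, ← map_pow, ← map_mul, ← map_inv₀, hmem] at h2
      exact h2.1

/-! ### Descent to number fields -/

variable (F₀) in
/-- **Descent.**  Every element of `Ω'` lies in `E · F₀` as soon as `E` contains a certain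
finite set of constants. -/
theorem exists_finset_mem_FcT (f : OmG F₀) :
    ∃ T : Finset Qb, ∀ E : Subfield Qb, (∀ a ∈ T, a ∈ E) → f ∈ FcT F₀ E := by
  classical
  have key : ∀ x : LaurentSeries Qb, x ∈ laurentBaseChange Qb F₀ →
      ∃ T : Finset Qb, ∀ E : Subfield Qb, (∀ a ∈ T, a ∈ E) →
        ∃ g ∈ FcT F₀ E, (g : LaurentSeries Qb) = x := by
    intro x hx
    rw [mem_laurentBaseChange_iff] at hx
    induction hx using Subfield.closure_induction with
    | mem y hy =>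
        rcases hy with ⟨a, rfl⟩ | ⟨z, hz, rfl⟩
        · exact ⟨{a}, fun E hE => ⟨cstG F₀ a, cstG_mem_FcT (hE a (by simp)), rfl⟩⟩
        · exact ⟨∅, fun E _ => ⟨embG F₀ ⟨z, hz⟩, embG_mem_FcT E _, rfl⟩⟩
    | one => exact ⟨∅, fun E _ => ⟨1, one_mem _, rfl⟩⟩
    | add x y _ _ hx hy =>
        obtain ⟨T₁, h₁⟩ := hx
        obtain ⟨T₂, h₂⟩ := hy
        refine ⟨T₁ ∪ T₂, fun E hE => ?_⟩
        obtain ⟨f, hf, hfx⟩ := h₁ E (fun a ha => hE a (Finset.mem_union_left _ ha))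
        obtain ⟨g, hg, hgy⟩ := h₂ E (fun a ha => hE a (Finset.mem_union_right _ ha))
        exact ⟨f + g, add_mem hf hg, by rw [← hfx, ← hgy]; rfl⟩
    | neg x _ hx =>
        obtain ⟨T₁, h₁⟩ := hx
        refine ⟨T₁, fun E hE => ?_⟩
        obtain ⟨f, hf, hfx⟩ := h₁ E hE
        exact ⟨-f, neg_mem hf, by rw [← hfx]; rfl⟩
    | inv x _ hx =>
        obtain ⟨T₁, h₁⟩ := hx
        refine ⟨T₁, fun E hE => ?_⟩
        obtain ⟨f, hf, hfx⟩ := h₁ E hE
        exact ⟨f⁻¹, inv_mem hf, by rw [← hfx]; rfl⟩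
    | mul x y _ _ hx hy =>
        obtain ⟨T₁, h₁⟩ := hx
        obtain ⟨T₂, h₂⟩ := hy
        refine ⟨T₁ ∪ T₂, fun E hE => ?_⟩
        obtain ⟨f, hf, hfx⟩ := h₁ E (fun a ha => hE a (Finset.mem_union_left _ ha))
        obtain ⟨g, hg, hgy⟩ := h₂ E (fun a ha => hE a (Finset.mem_union_right _ ha))
        exact ⟨f * g, mul_mem hf hg, by rw [← hfx, ← hgy]; rfl⟩
  obtain ⟨T, hT⟩ := key (f : LaurentSeries Qb) f.2
  refine ⟨T, fun E hE => ?_⟩
  obtain ⟨g, hg, hgf⟩ := hT E hE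
  have : g = f := Subtype.ext hgf
  exact this ▸ hg

/-! ### Elementary properties of the Gauss ring -/

/-- `A`-integral elements of `E · F₀` lie in the Gauss ring. -/
theorem mem_VcT_of_coeff_mem {A : ValuationSubring Qb} {E : Subfield Qb} {f : OmG F₀}
    (hf : f ∈ FcT F₀ E) (hA : ∀ n : ℤ, (f : LaurentSeries Qb).coeff n ∈ A) :
    f ∈ VcT F₀ A E := by
  obtain ⟨U, hU, hfU⟩ := exists_isInt_of_coeff_mem (ι := exG F₀) (E := E) hf hA
    (fun n => coeff_mem_of_mem_FcT hf n)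
  exact mem_VSet_of_isInt hU hfU

/-- `A`-integral elements of `E · F₀` with nonzero reduction are units of the Gauss ring. -/
theorem inv_mem_VcT {A : ValuationSubring Qb} {E : Subfield Qb} {f : OmG F₀}
    (hf : f ∈ FcT F₀ E) (U : LaurentSeries A)
    (hfU : (f : LaurentSeries Qb) = coeffMap A.subtype U)
    (hU : coeffMap (IsLocalRing.residue A) U ≠ 0) : f⁻¹ ∈ VcT F₀ A E := by
  have hUint : IsInt A E (exG F₀) (FcT F₀ E) U := by
    refine ⟨fun n => ?_, f, hf, hfU⟩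
    have := coeff_mem_of_mem_FcT hf n
    rw [hfU, coeffMap_coeff] at this
    exact this
  have hf0 : f ≠ 0 := by
    intro h0
    apply series_ne_zero_of_red_ne_zero hU
    rw [← hfU, h0]
    rfl
  refine ⟨inv_mem hf, 1, U, isInt_one, hUint, hU, ?_⟩
  show ((f⁻¹ : OmG F₀) : LaurentSeries Qb) * coeffMap A.subtype U = coeffMap A.subtype 1
  rw [← hfU, map_one]
  have : ((f⁻¹ : OmG F₀) : LaurentSeries Qb) * (f : LaurentSeries Qb)
      = ((f⁻¹ * f : OmG F₀) : LaurentSeries Qb) := rfl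
  rw [this, inv_mul_cancel₀ hf0]
  rfl

end Fermat.Agent.S48.Red1
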