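import Fermat.Agent.S48.Red1.Mod1
import Fermat.Agent.S48.H648.AvF1
import Fermat.Agent.S48.H76.IGen
import Fermat.Agent.S48.H828.IActPhi

/-!
# S48 / RES (Tower A1), sub-tower A1-RED, node R4: the branch leaf for `F1 M` (helper588)

`branchF1 : BranchF1` — the branch data of the `j`-line for `Ω = Q̄·F1(M)`: unramified outside
`0, 1728, ∞`, `e ≤ 3` over `0`, `e ≤ 2` over `1728`.  Pure adapter: helper648's
`ordLe_*_of_embedding` / `unramified_j_laurentBaseChange` along `baseChangeEmb` into the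
full-level field `H828.IActField`, the avatars of the generators of `F1 M` being helper76's
`iactP` (I-GEN).
-/

set_option autoImplicit false

noncomputable section

namespace Fermat.Agent.S48.Red1

open ModularCurve AlgebraicCurve HahnSeries Fermat.Agent.S18 Fermat.Agent.S18.Alg
open Fermat.Agent.S18.Mod Fermat.Agent.S48.H248 Fermat.Agent.S18.H107 Fermat.Agent.S48.F1
open Fermat.Agent.S48.H828 Fermat.Agent.S48.H648 Fermat.Agent.S24 Fermat.Agent.S24.H997

/-- The coordinate `j` of `OmG F₀` is the series `j`. -/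
theorem coe_iotaG_jOm (M : ℕ) [NeZero M] (F₀ : IntermediateField ℚ (LaurentSeries ℚ))
    (hle : modularFunctionFieldFull M ≤ F₀) :
    ((iotaG M F₀ hle (jOm M) : OmG F₀) : LaurentSeries Qb) = coeffEmb Qb jq := by
  rw [coe_iotaG]
  show coeffEmb Qb (qExpand ℚ 1 jq) = coeffEmb Qb jq
  rw [qExpand_one_apply]

/-- **The branch leaf for `F1 M`.** -/
theorem branchF1 : BranchF1 := by
  intro M _
  have hζ := iactZeta_spec M
  have hP : HasDivAvatars ιK M := fun a ha =>
    ⟨Fermat.Agent.S48.H76.iactP (iactZeta M) hζ a,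
      Fermat.Agent.S48.H76.iactExp_iactP (iactZeta M) hζ ha⟩
  have hF₀ : ∀ x ∈ F1 M, coeffEmb Qb x ∈ avatarField ιK M :=
    fun _ hx => F1_le_avatarIF (iactZeta M) hζ hP hx
  have hj := coe_iotaG_jOm M (F1 M) (full_le_F1 M)
  haveI : CharZero (OmG (F1 M)) :=
    charZero_of_injective_algebraMap (algebraMap Qb (OmG (F1 M))).injective
  refine ⟨?_, ?_, ?_⟩
  · intro O hO a ha ha0 ha1 h1 h2
    rw [OrdLe107.one_iff]
    intro s hs hs'
    exact unramified_j_laurentBaseChange (ι := ιK) (M := M) (F1 M) hF₀ _ hj O hO a ha ha0 ha1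
      h1 h2 s hs hs'
  · intro O hO h1 h2
    exact ordLe_zero_of_embedding ιK M (baseChangeEmb ιK M (F1 M) hF₀) (LcG (F1 M)) _
      (baseChange_hconst (F1 M) hF₀) (baseChange_hj (F1 M) hF₀ _ hj) O hO h1 h2
  · intro O hO h1 h2
    exact ordLe_1728_of_embedding ιK M (baseChangeEmb ιK M (F1 M) hF₀) (LcG (F1 M)) _
      (baseChange_hconst (F1 M) hF₀) (baseChange_hj (F1 M) hF₀ _ hj) O hO h1 h2

end Fermat.Agent.S48.Red1
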