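import Fermat.Agent.S48.Red1.Asm
import Fermat.Agent.S18.H438.Front.AlgMain

/-!
# S48 / RES (Tower A1), sub-tower A1-RED: the Kummer core `CoreGen F₀ A m` from the leaves
(helper588)

`coreGen_top` : `goodFamily_top` (`Asm.lean`) + generic glue (`GlueGen.lean`) + S18 ALG
(`H438.algMain`, valid for every field and every good family).

`coreG_body_of_coreGen` : `CoreGen F₀ A m` implies `H136.CoreG F₀ A Fk m` for EVERY reduction
field `Fk` — stated here in unfolded form, without importing `H136` (the statement is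
definitionally the body of `H136.CoreG`).
-/

set_option autoImplicit false

noncomputable section

namespace Fermat.Agent.S48.Red1

open ModularCurve AlgebraicCurve HahnSeries Fermat.Agent.S18 Fermat.Agent.S18.Alg
open Fermat.Agent.S18.Mod Fermat.Agent.S48.H248 Fermat.Agent.S18.H107

variable {M : ℕ} [NeZero M] {F₀ : IntermediateField ℚ (LaurentSeries ℚ)}
  (hle : modularFunctionFieldFull M ≤ F₀) {ℓ : ℕ} [Fact ℓ.Prime]

/-- **CORE from the leaves**, for every prime `ℓ ∤ M` which has a coordinate of level `M`, every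
`A` over `ℓ` and every prime `m ≠ ℓ`. -/
theorem coreGen_top (hF₀ : IntGen F₀) (hℓM : ¬ ℓ ∣ M) (A : ValuationSubring Qb)
    (hA : A.LiesOverPrime ℓ) {x : Om M} {S : Finset (Om M)} (hx : IsCoordinate M ℓ x S)
    [FiniteDimensional (IntermediateField.adjoin Qb {iotaG M F₀ hle x}) (OmG F₀)]
    (T₀ : Finset Qb)
    (hleaf : ∀ (E : IntermediateField ℚ Qb) (w₀ : Qb), FiniteDimensional ℚ E →
      (∀ a ∈ T₀, a ∈ E) → IsUnifG A E.toSubfield w₀ →
      TopLeaves F₀ A E.toSubfield w₀ (iotaG M F₀ hle (jOm M)))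
    (hbr : BranchJ107 (LcG F₀) (iotaG M F₀ hle (jOm M)))
    (m : ℕ) (hmp : m.Prime) (hm : ¬ ℓ ∣ m) : CoreGen F₀ A m := by
  obtain ⟨𝓕', hfam, hc⟩ := goodFamily_top hle hF₀ hℓM A hA hx T₀ hleaf hbr
  exact coreGen_of_family (Fact.out : ℓ.Prime) A hA hfam hc
    (Fermat.Agent.S18.H438.algMain _ _ _ _) m hmp hm

/-- `CoreGen` implies the core of the generic Eichler–Shimura engine (`H136.CoreG F₀ A Fk m`,
unfolded) for every reduction field `Fk`. -/
theorem coreG_body_of_coreGen {F₀ : IntermediateField ℚ (LaurentSeries ℚ)}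
    {A : ValuationSubring Qb} {m : ℕ} (h : CoreGen F₀ A m)
    (Fk : IntermediateField (IsLocalRing.ResidueField A)
      (LaurentSeries (IsLocalRing.ResidueField A))) :
    ∀ (U₁ U₂ : LaurentSeries A)
      (h₁ : coeffMap A.subtype U₁ ∈ laurentBaseChange Qb F₀ ∧
        coeffMap (IsLocalRing.residue A) U₁ ∈ Fk ∧ coeffMap (IsLocalRing.residue A) U₁ ≠ 0)
      (h₂ : coeffMap A.subtype U₂ ∈ laurentBaseChange Qb F₀ ∧
        coeffMap (IsLocalRing.residue A) U₂ ∈ Fk ∧ coeffMap (IsLocalRing.residue A) U₂ ≠ 0),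
      coeffMap (IsLocalRing.residue A) U₁ = coeffMap (IsLocalRing.residue A) U₂ →
      (∀ v : Place Qb (laurentBaseChange Qb F₀),
        (m : ℤ) ∣ v.ord (⟨_, h₁.1⟩ : laurentBaseChange Qb F₀)
          - v.ord (⟨_, h₂.1⟩ : laurentBaseChange Qb F₀)) →
      ∃ (c : Qb) (y : laurentBaseChange Qb F₀), c ≠ 0 ∧ y ≠ 0 ∧
        (⟨_, h₁.1⟩ : laurentBaseChange Qb F₀)
          = algebraMap Qb (laurentBaseChange Qb F₀) c * y ^ m
            * (⟨_, h₂.1⟩ : laurentBaseChange Qb F₀) :=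
  fun U₁ U₂ h₁ h₂ hred hdiv => h U₁ U₂ h₁.1 h₂.1 h₂.2.2 hred hdiv

end Fermat.Agent.S48.Red1
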