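import Fermat.Agent.S48.Red1.Branch
import Fermat.Agent.S48.H150.HI1
import Fermat.Agent.S48.H128.SepGen

/-!
# S48 / RES (Tower A1), sub-tower A1-RED, node R4: the leaves `finite` and `separable` (helper588)

* `finite_FcT_of_gens` : GENERIC — if `F₀ = ℚ(T)`, `T` finite, every `t ∈ T` a root of a nonzero
  polynomial over `ℚ[j]`, then `E·F₀` is finite over `E(j)` (field `finite` of `TopLeaves`);
* `separable_VcT`      : GENERIC — the field `separable` of `TopLeaves` from the field `finite`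
  (helper128's `separable_VRing`);
* `QepTop`, `QepF1`    : the remaining leaves (`qep_fin`, `qep_inf` at `j`);
* `leavesF1_of_qep`    : `QepF1 → LeavesF1`;
* `mod1Hyp_of_qep`     : `QepF1 → H908.Core1.Mod1Hyp`.
-/

set_option autoImplicit false

noncomputable section

namespace Fermat.Agent.S48.Red1

open ModularCurve AlgebraicCurve HahnSeries Fermat.Agent.S18 Fermat.Agent.S18.Alg
open Fermat.Agent.S18.Mod Fermat.Agent.S48.H248 Fermat.Agent.S18.H107 Fermat.Agent.S48.F1
open Fermat.Agent.S24 Fermat.Agent.S24.Deg457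

section Generic

variable {F₀ : IntermediateField ℚ (LaurentSeries ℚ)}

/-- The coordinate lies in `E(j)`. -/
theorem self_mem_ratField_red1 (E : Subfield Qb) (j : OmG F₀) :
    j ∈ ratField (EcG E (cstG F₀)) j :=
  Subfield.subset_closure (Or.inr rfl)

theorem EcG_le_ratField_red1 (E : Subfield Qb) (j : OmG F₀) :
    EcG E (cstG F₀) ≤ ratField (EcG E (cstG F₀)) j :=
  fun _ h => Subfield.subset_closure (Or.inl h)

/-- Ring homs out of `ℚ` agree. -/
theorem ringHom_rat_eq_red1 {R : Type*} [Semiring R] (f g : ℚ →+* R) : f = g :=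
  Subsingleton.elim f g

/-- A relation over `ℚ[j]` makes the image in `Ω'` integral over `E(j)`. -/
theorem isIntegral_embG_of_algRel (E : Subfield Qb) (j : OmG F₀)
    (hj : (j : LaurentSeries Qb) = coeffEmb Qb jq) (g : F₀)
    (hg : Fermat.Agent.S48.H150.AlgRel ℚ jq (g : LaurentSeries ℚ)) :
    IsIntegral (ratField (EcG E (cstG F₀)) j) (embG F₀ g) := by
  obtain ⟨Q, hQ0, hQ⟩ := hg
  have hexinj : Function.Injective (exG F₀) := (exG F₀).injective
  set K := ratField (EcG E (cstG F₀)) j with hKdef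
  let j' : K := ⟨j, self_mem_ratField_red1 E j⟩
  -- `φ : ℚ[X] → K`, `X ↦ j`
  let φ : Polynomial ℚ →+* K := Polynomial.eval₂RingHom (algebraMap ℚ K) j'
  have hψ : ((exG F₀).comp K.subtype).comp φ = (coeffEmb Qb).comp (evJ jq) := by
    apply Polynomial.ringHom_ext
    · intro a
      have h1 : ((exG F₀).comp K.subtype).comp (φ.comp Polynomial.C)
          = ((coeffEmb Qb).comp (evJ jq)).comp Polynomial.C := ringHom_rat_eq_red1 _ _
      exact congrArg (fun f : ℚ →+* LaurentSeries Qb => f a) h1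
    · show exG F₀ (K.subtype (Polynomial.eval₂ (algebraMap ℚ K) j' Polynomial.X)) =
        coeffEmb Qb (Polynomial.aeval jq Polynomial.X)
      rw [Polynomial.eval₂_X, Polynomial.aeval_X]
      exact hj
  have hφinj : Function.Injective φ := by
    rw [injective_iff_map_eq_zero]
    intro t ht
    by_contra h0
    have h1 := congrArg (fun f : Polynomial ℚ →+* LaurentSeries Qb => f t) hψ
    simp only [RingHom.comp_apply] at h1
    rw [ht, map_zero, map_zero] at h1
    have h3 : Polynomial.aeval (JK Qb) (t.map (algebraMap ℚ Qb)) = 0 := by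
      have h4 : coeffEmb Qb (Polynomial.aeval jq t) =
          Polynomial.aeval (JK Qb) (t.map (algebraMap ℚ Qb)) := by
        rw [Polynomial.aeval_def, Polynomial.aeval_def, Polynomial.hom_eval₂,
          Polynomial.eval₂_map, JK]
        congr 1
        exact ringHom_rat_eq_red1 _ _
      rw [← h4]
      exact h1.symm
    exact aeval_JK_ne_zero Qb
      ((Polynomial.map_ne_zero_iff (algebraMap ℚ Qb).injective).mpr h0) h3
  have hP0 : Q.map φ ≠ 0 := (Polynomial.map_ne_zero_iff hφinj).mpr hQ0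
  have hroot : Polynomial.aeval (embG F₀ g) (Q.map φ) = 0 := by
    apply hexinj
    rw [map_zero, Polynomial.aeval_def, Polynomial.eval₂_map, Polynomial.hom_eval₂]
    have : (exG F₀).comp ((algebraMap K (OmG F₀)).comp φ)
        = ((exG F₀).comp K.subtype).comp φ := rfl
    rw [this, hψ]
    show Polynomial.eval₂ ((coeffEmb Qb).comp (evJ jq)) (coeffEmb Qb (g : LaurentSeries ℚ)) Q = 0
    rw [← Polynomial.hom_eval₂, hQ, map_zero]
  exact IsAlgebraic.isIntegral ⟨Q.map φ, hP0, hroot⟩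

set_option synthInstance.maxHeartbeats 400000 in
set_option maxHeartbeats 1000000 in
/-- **The field `finite`**: `E·F₀` is finite over `E(j)` as soon as `F₀` is generated by
finitely many series algebraic over `ℚ(j)`. -/
theorem finite_FcT_of_gens (T : Set (LaurentSeries ℚ)) (hT : T.Finite)
    (hF₀ : F₀ = IntermediateField.adjoin ℚ T) (E : Subfield Qb) (j : OmG F₀)
    (hjF : j ∈ FcT F₀ E) (hj : (j : LaurentSeries Qb) = coeffEmb Qb jq)
    (halg : ∀ t ∈ T, Fermat.Agent.S48.H150.AlgRel ℚ jq t) :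
    ∃ s : Finset (OmG F₀), (s : Set (OmG F₀)) ⊆ FcT F₀ E ∧
      ∀ f ∈ FcT F₀ E, f ∈ Submodule.span (ratField (EcG E (cstG F₀)) j) (s : Set (OmG F₀)) := by
  classical
  subst hF₀
  set K := ratField (EcG E (cstG (IntermediateField.adjoin ℚ T))) j with hKdef
  set T' : Set (OmG (IntermediateField.adjoin ℚ T)) := {y | ∃ g : (IntermediateField.adjoin ℚ T), (g : LaurentSeries ℚ) ∈ T ∧ y = embG (IntermediateField.adjoin ℚ T) g} with hT'
  have hT'fin : T'.Finite := by
    refine (hT.image (fun t => if h : t ∈ (IntermediateField.adjoin ℚ T) then embG (IntermediateField.adjoin ℚ T) ⟨t, h⟩ else 0)).subset ?_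
    rintro y ⟨g, hg, rfl⟩
    exact ⟨(g : LaurentSeries ℚ), hg, by simp⟩
  set L := IntermediateField.adjoin K T' with hLdef
  have hint : ∀ y ∈ T', IsIntegral K y := by
    rintro y ⟨g, hg, rfl⟩
    exact isIntegral_embG_of_algRel E j hj g (halg _ hg)
  have : Finite T' := hT'fin.to_subtype
  have hfd : FiniteDimensional K L := IntermediateField.finiteDimensional_adjoin hint
  have hKF : K ≤ FcT (IntermediateField.adjoin ℚ T) E := by
    refine Subfield.closure_le.mpr ?_
    rintro y (hy | hy)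
    · exact EcG_le_FcT E hy
    · rw [Set.mem_singleton_iff] at hy
      rw [hy]; exact hjF
  -- `embG g ∈ L` by induction on `g ∈ ℚ(T)`
  have key : ∀ x (hx : x ∈ IntermediateField.adjoin ℚ T), embG (IntermediateField.adjoin ℚ T) ⟨x, hx⟩ ∈ L := by
    intro x hx
    induction hx using IntermediateField.adjoin_induction with
    | mem x hx =>
      exact IntermediateField.subset_adjoin _ _ ⟨⟨x, IntermediateField.subset_adjoin ℚ T hx⟩,
        hx, rfl⟩
    | algebraMap c =>
      have h1 : embG (IntermediateField.adjoin ℚ T) ⟨algebraMap ℚ (LaurentSeries ℚ) c,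
          (IntermediateField.adjoin ℚ T).algebraMap_mem c⟩ = ((c : ℚ) : OmG (IntermediateField.adjoin ℚ T)) := by
        have h2 : (⟨algebraMap ℚ (LaurentSeries ℚ) c,
            (IntermediateField.adjoin ℚ T).algebraMap_mem c⟩ : (IntermediateField.adjoin ℚ T)) = ((c : ℚ) : (IntermediateField.adjoin ℚ T)) := by
          apply Subtype.ext
          show algebraMap ℚ (LaurentSeries ℚ) c = ((c : ℚ) : LaurentSeries ℚ)
          exact eq_ratCast _ c
        rw [h2, map_ratCast]
      rw [h1]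
      exact SubfieldClass.ratCast_mem L c
    | add x y hx hy hx' hy' =>
      have : embG (IntermediateField.adjoin ℚ T) ⟨x + y, add_mem hx hy⟩ = embG (IntermediateField.adjoin ℚ T) ⟨x, hx⟩ + embG (IntermediateField.adjoin ℚ T) ⟨y, hy⟩ := by
        rw [← map_add]; rfl
      rw [this]
      exact add_mem hx' hy'
    | inv x hx hx' =>
      have : embG (IntermediateField.adjoin ℚ T) ⟨x⁻¹, inv_mem hx⟩ = (embG (IntermediateField.adjoin ℚ T) ⟨x, hx⟩)⁻¹ := by
        rw [← map_inv₀]; rfl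
      rw [this]
      exact inv_mem hx'
    | mul x y hx hy hx' hy' =>
      have : embG (IntermediateField.adjoin ℚ T) ⟨x * y, mul_mem hx hy⟩ = embG (IntermediateField.adjoin ℚ T) ⟨x, hx⟩ * embG (IntermediateField.adjoin ℚ T) ⟨y, hy⟩ := by
        rw [← map_mul]; rfl
      rw [this]
      exact mul_mem hx' hy'
  -- `FcT = L`
  have hFL : ∀ f, f ∈ FcT (IntermediateField.adjoin ℚ T) E ↔ f ∈ L := by
    intro f
    constructor
    · intro hf
      have hle : FcT (IntermediateField.adjoin ℚ T) E ≤ L.toSubfield := by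
        refine Subfield.closure_le.mpr ?_
        rintro y (hy | ⟨g, rfl⟩)
        · exact IntermediateField.algebraMap_mem L (⟨y, EcG_le_ratField_red1 E j hy⟩ : K)
        · exact key g.1 g.2
      exact hle hf
    · intro hf
      have h : L ≤ Subfield.toIntermediateField (FcT (IntermediateField.adjoin ℚ T) E) (fun x => hKF x.2) := by
        rw [IntermediateField.adjoin_le_iff]
        rintro z ⟨g, -, rfl⟩
        exact embG_mem_FcT E g
      exact h hf
  obtain ⟨s, hs⟩ := (Module.finite_def (R := K) (M := L)).mp hfd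
  refine ⟨s.image (fun y : L => (y : OmG (IntermediateField.adjoin ℚ T))), ?_, ?_⟩
  · intro y hy
    rw [Finset.coe_image] at hy
    obtain ⟨z, -, rfl⟩ := hy
    exact (hFL _).mpr z.2
  · intro f hf
    have hfL : f ∈ L := (hFL f).mp hf
    have h1 : (⟨f, hfL⟩ : L) ∈ Submodule.span K (s : Set L) := by
      rw [hs]; exact Submodule.mem_top
    have h2 := Submodule.mem_map_of_mem (f := (L.val.toLinearMap : L →ₗ[K] OmG (IntermediateField.adjoin ℚ T))) h1
    rw [Submodule.map_span] at h2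
    rw [Finset.coe_image]
    exact h2

/-- The integral expansion of the coordinate `j`. -/
theorem isInt_j_red1 (A : ValuationSubring Qb) (E : Subfield Qb) (j : OmG F₀)
    (hjF : j ∈ FcT F₀ E) (hj : (j : LaurentSeries Qb) = coeffEmb Qb jq) :
    IsInt A E (exG F₀) (FcT F₀ E) (jqModC A) ∧ exG F₀ j = ivInc A (jqModC A) := by
  have hx : exG F₀ j = ivInc A (jqModC A) := by
    rw [exG_apply, hj]
    show JK Qb = coeffMap A.subtype (jqModC A)
    rw [JK_eq, coeffMap_jqModC]
  refine ⟨⟨fun n => ?_, j, hjF, hx⟩, hx⟩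
  have h := coeff_mem_of_mem_FcT hjF n
  have h2 : (j : LaurentSeries Qb) = ivInc A (jqModC A) := hx
  rw [h2, ivInc_coeff] at h
  exact h

/-- **The field `separable`** of `TopLeaves`, from the field `finite`. -/
theorem separable_VcT {ℓ : ℕ} [Fact ℓ.Prime] {A : ValuationSubring Qb}
    (hA : A.LiesOverPrime ℓ) {E : Subfield Qb} {w₀ : Qb} (hunif : IsUnifG A E w₀)
    (j : OmG F₀) (hjF : j ∈ FcT F₀ E) (hj : (j : LaurentSeries Qb) = coeffEmb Qb jq)
    (hfin : ∃ s : Finset (OmG F₀), (s : Set (OmG F₀)) ⊆ FcT F₀ E ∧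
      ∀ f ∈ FcT F₀ E, f ∈ Submodule.span (ratField (EcG E (cstG F₀)) j) (s : Set (OmG F₀))) :
    ∀ f ∈ VcT F₀ A E, ∃ P : Polynomial (OmG F₀),
      (∀ i, P.coeff i ∈ polyRing (RcG A E (cstG F₀)) j) ∧
      P.eval f * (cstG F₀ w₀)⁻¹ ∈ VcT F₀ A E ∧ (Polynomial.derivative P).eval f ≠ 0 ∧
      ((Polynomial.derivative P).eval f)⁻¹ ∈ VcT F₀ A E := by
  have hchar : CharP (IsLocalRing.ResidueField A) ℓ := Fermat.Agent.S18.H516.charP_residue A hA
  have halgQ : Algebra.IsAlgebraic ℚ Qb := AlgebraicClosure.isAlgebraic ℚ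
  obtain ⟨-, -, hw, hw0, -, -, hgen⟩ := igusa_R_fields (cstG F₀) hunif
  obtain ⟨hX₀, hx⟩ := isInt_j_red1 A E j hjF hj
  have hn : ¬ ((ℓ : ℤ) ∣ (ivRed A (jqModC A)).order) := by
    have h1 : ivRed A (jqModC A) = jqModC (IsLocalRing.ResidueField A) :=
      coeffMap_jqModC (IsLocalRing.residue A)
    rw [h1, Fermat.Agent.S18.H264.order_jqModC]
    exact Fermat.Agent.S18.H264.not_prime_dvd_neg_one ℓ Fact.out
  exact (Fermat.Agent.S48.H128.partSep_VRing_of_finite (cstG F₀) (exG_cstG F₀)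
    (fun c hc => cstG_mem_FcT hc) ℓ hw hw0 hgen hX₀ hx hn hfin).separable

end Generic

/-! ### The leaves for `F1 M` -/

theorem iotaG_jOm_mem_FcT (M : ℕ) [NeZero M] (F₀ : IntermediateField ℚ (LaurentSeries ℚ))
    (hle : modularFunctionFieldFull M ≤ F₀) (E : Subfield Qb) :
    iotaG M F₀ hle (jOm M) ∈ FcT F₀ E := by
  have h : iotaG M F₀ hle (jOm M) = embG F₀ ⟨qExpand ℚ 1 jq, hle (jqd_mem_full M (one_dvd M))⟩ :=
    iotaG_jd hle 1 (one_dvd M)
  rw [h]
  exact embG_mem_FcT E _

/-- **Leaf `finite` for `F1 M`** (all `M`, all `E`). -/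
theorem finite_F1 (M : ℕ) [NeZero M] (E : Subfield Qb) :
    ∃ s : Finset (OmG (F1 M)), (s : Set (OmG (F1 M))) ⊆ FcT (F1 M) E ∧
      ∀ f ∈ FcT (F1 M) E, f ∈ Submodule.span
        (ratField (EcG E (cstG (F1 M))) (iotaG M (F1 M) (full_le_F1 M) (jOm M)))
        (s : Set (OmG (F1 M))) :=
  finite_FcT_of_gens (Fermat.Agent.S48.H150.gensF1 M) (Fermat.Agent.S48.H150.finite_gensF1 M)
    (Fermat.Agent.S48.H150.F1_eq_adjoin M) E _ (iotaG_jOm_mem_FcT M _ _ E)
    (coe_iotaG_jOm M _ _)
    (fun _ ht => Fermat.Agent.S48.H150.algRel_gensF1 (Fermat.Agent.S48.H150.divRel M) ht)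

/-- The two `q`-expansion-principle leaves at the coordinate `j` (fields `qep_fin`, `qep_inf` of
`TopLeaves`, VERBATIM). -/
structure QepTop (F₀ : IntermediateField ℚ (LaurentSeries ℚ)) (A : ValuationSubring Qb)
    (E : Subfield Qb) (w₀ : Qb) (j : OmG F₀) : Prop where
  qep_fin : ∀ b ∈ chart (FcT F₀ E) (RcG A E (cstG F₀)) j, b * (cstG F₀ w₀)⁻¹ ∈ VcT F₀ A E →
    b * (cstG F₀ w₀)⁻¹ ∈ chart (FcT F₀ E) (RcG A E (cstG F₀)) j
  qep_inf : ∀ b ∈ chart (FcT F₀ E) (RcG A E (cstG F₀)) j⁻¹, b * (cstG F₀ w₀)⁻¹ ∈ VcT F₀ A E →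
    b * (cstG F₀ w₀)⁻¹ ∈ chart (FcT F₀ E) (RcG A E (cstG F₀)) j⁻¹

/-- **The remaining leaf of R4**: the `q`-expansion principle for `E·F1(M)` at `j`, for all
number fields `E` containing a finite set `T₀` of constants (e.g. `ζ_M`), `p ∤ M`. -/
def QepF1 : Prop :=
  ∀ (M p : ℕ) [NeZero M], p.Prime → ¬ p ∣ M → ∀ A : ValuationSubring Qb, A.LiesOverPrime p →
    ∃ T₀ : Finset Qb, ∀ (E : IntermediateField ℚ Qb) (w₀ : Qb), FiniteDimensional ℚ E →
      (∀ a ∈ T₀, a ∈ E) → IsUnifG A E.toSubfield w₀ →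
      QepTop (F1 M) A E.toSubfield w₀ (iotaG M (F1 M) (full_le_F1 M) (jOm M))

/-- `QepF1 → LeavesF1`: the fields `finite` and `separable` are proved. -/
theorem leavesF1_of_qep (h : QepF1) : LeavesF1 := by
  intro M p _ hp hpM A hA
  obtain ⟨T₀, hT₀⟩ := h M p hp hpM A hA
  refine ⟨T₀, fun E w₀ hE hTE hunif => ?_⟩
  have hq := hT₀ E w₀ hE hTE hunif
  have : Fact p.Prime := ⟨hp⟩
  have hfin := finite_F1 M E.toSubfield
  exact
    { finite := hfin
      separable := separable_VcT hA hunif _ (iotaG_jOm_mem_FcT M _ _ _) (coe_iotaG_jOm M _ _) hfin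
      qep_fin := hq.qep_fin
      qep_inf := hq.qep_inf }

/-- **R4 for `F1 M` from the `q`-expansion principle.** -/
theorem mod1Hyp_of_qep (h : QepF1) : Fermat.Agent.S48.H908.Core1.Mod1Hyp :=
  mod1Hyp_of_leaves (leavesF1_of_qep h) branchF1


end Fermat.Agent.S48.Red1
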