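import Fermat.Agent.S18.H965.GlueLemmas

/-!
# S48 / RES (Tower A1), sub-tower A1-RED: GENERIC glue `GoodFamily + ALG ⟹ CORE` (helper588)

Port of `S18/H965/Glue.lean` (`node_glue`) to an ARBITRARY field `F₀ ⊆ ℚ((q))`
(`F₀ = F1 M` of `S48/F1/Defs.lean`, `F₀ = F1p M p`, …).

* `OmG F₀ := ↥(laurentBaseChange Q̄ F₀)`, `LcG F₀` its constants;
* `CoreGen F₀ A m` : the Kummer-type core of S18 (`S18.CoreStatement`) for `F₀`, WITHOUT any
  condition on where the reductions live (so it implies every variant with a residue field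
  `F_k ⊆ k((q))` in the hypotheses);
* `ConcreteFamily F₀ A 𝓕` : what the glue needs to know about the members of a family of models
  on `OmG F₀` (they are "concrete": `R = A ∩ Ec`, coefficients of `Fc` in `Ec`, integral series
  of `Fc` lie in `V`, every pair of elements of `Ω` lies in some member);
* `coreGen_of_family` : `GoodFamily` + `ConcreteFamily` + `AlgMainStatement` ⟹ `CoreGen`
  for every PRIME `m ≠ ℓ`.
-/

set_option autoImplicit false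

noncomputable section

namespace Fermat.Agent.S48.Red1

open ModularCurve AlgebraicCurve HahnSeries Fermat.Agent.S18

variable (F₀ : IntermediateField ℚ (LaurentSeries ℚ))

/-- The function field `Q̄ · F₀ ⊆ Q̄((q))`, as a type. -/
abbrev OmG : Type := ↥(laurentBaseChange Qb F₀)

/-- The constants `Q̄ ⊆ OmG F₀`. -/
def LcG : Subfield (OmG F₀) := (algebraMap Qb (OmG F₀)).fieldRange

/-- **CORE** for `F₀`: two `A`-integral series of `Q̄·F₀` with the same nonzero reduction whose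
quotient has a divisor divisible by `m` differ by a constant times an `m`-th power. -/
def CoreGen (A : ValuationSubring Qb) (m : ℕ) : Prop :=
  ∀ (U₁ U₂ : LaurentSeries A) (h₁ : coeffMap A.subtype U₁ ∈ laurentBaseChange Qb F₀)
    (h₂ : coeffMap A.subtype U₂ ∈ laurentBaseChange Qb F₀),
    coeffMap (IsLocalRing.residue A) U₂ ≠ 0 →
    coeffMap (IsLocalRing.residue A) U₁ = coeffMap (IsLocalRing.residue A) U₂ →
    (∀ v : Place Qb (OmG F₀),
      (m : ℤ) ∣ v.ord (⟨_, h₁⟩ : OmG F₀) - v.ord (⟨_, h₂⟩ : OmG F₀)) →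
    ∃ (c : Qb) (y : OmG F₀), c ≠ 0 ∧ y ≠ 0 ∧
      (⟨_, h₁⟩ : OmG F₀) = algebraMap Qb (OmG F₀) c * y ^ m * (⟨_, h₂⟩ : OmG F₀)

/-- What the glue needs to know about a family of models on `OmG F₀` (see the module docstring).
For a model `p = (Ec, Fc, R, V, w)`: `p.1 = Ec`, `p.2.1 = Fc`, `p.2.2.1 = R`, `p.2.2.2.1 = V`. -/
structure ConcreteFamily (A : ValuationSubring Qb) (𝓕 : Set (Alg.Model (OmG F₀))) : Prop where
  /-- descent: every pair of elements of `Ω` lies in the function field of some member -/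
  exists_member : ∀ f g : OmG F₀, ∃ p ∈ 𝓕, f ∈ p.2.1 ∧ g ∈ p.2.1
  /-- `Ec` consists of constants -/
  E_const : ∀ p ∈ 𝓕, ∀ e ∈ p.1, ∃ a : Qb, algebraMap Qb (OmG F₀) a = e
  /-- `R = A ∩ Ec` -/
  R_iff : ∀ p ∈ 𝓕, ∀ a : Qb,
    algebraMap Qb (OmG F₀) a ∈ p.2.2.1 ↔ a ∈ A ∧ algebraMap Qb (OmG F₀) a ∈ p.1
  /-- the `q`-expansion coefficients of the elements of `Fc` lie in `Ec` -/
  coeff_mem : ∀ p ∈ 𝓕, ∀ f ∈ p.2.1, ∀ n : ℤ,
    algebraMap Qb (OmG F₀) ((f : LaurentSeries Qb).coeff n) ∈ p.1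
  /-- `A`-integral elements of `Fc` lie in `V` -/
  int_mem_V : ∀ p ∈ 𝓕, ∀ f ∈ p.2.1, (∀ n : ℤ, (f : LaurentSeries Qb).coeff n ∈ A) →
    f ∈ p.2.2.2.1
  /-- `A`-integral elements of `Fc` with nonzero reduction are units of `V` -/
  unit_V : ∀ p ∈ 𝓕, ∀ f ∈ p.2.1, ∀ U : LaurentSeries A,
    (f : LaurentSeries Qb) = coeffMap A.subtype U → coeffMap (IsLocalRing.residue A) U ≠ 0 →
    f⁻¹ ∈ p.2.2.2.1

variable {F₀}

theorem coeffMap_subtype_injective (A : ValuationSubring Qb) :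
    Function.Injective (coeffMap (A.subtype : A →+* Qb)) := by
  intro U V h
  ext n
  have := congrArg (fun x => x.coeff n) h
  simpa using this

theorem series_ne_zero_of_red_ne_zero {A : ValuationSubring Qb} {U : LaurentSeries A}
    (hU : coeffMap (IsLocalRing.residue A) U ≠ 0) : coeffMap A.subtype U ≠ 0 := by
  intro h0
  apply hU
  have h2 : U = 0 := coeffMap_subtype_injective A (by rw [h0, map_zero])
  rw [h2, map_zero]

/-- The divisor hypothesis of `CoreGen` in the valuation-subring form of `AlgMainStatement`. -/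
theorem exists_unit_twistG {x₀ : OmG F₀} (hx₀ : Transcendental Qb x₀)
    [FiniteDimensional (IntermediateField.adjoin Qb {x₀}) (OmG F₀)]
    {m : ℕ} {f g : OmG F₀} (hf : f ≠ 0) (hg : g ≠ 0)
    (hdiv : ∀ v : Place Qb (OmG F₀), (m : ℤ) ∣ v.ord f - v.ord g)
    (O : ValuationSubring (OmG F₀)) (hO : ∀ a ∈ LcG F₀, a ∈ O) :
    ∃ t : OmG F₀, t ≠ 0 ∧ (f / g) * t ^ m ∈ O ∧ ((f / g) * t ^ m)⁻¹ ∈ O := by
  by_cases hO' : O = ⊤
  · subst hO'
    exact ⟨1, one_ne_zero, ValuationSubring.mem_top _, ValuationSubring.mem_top _⟩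
  obtain ⟨v, hv⟩ := Fermat.Agent.Lib.RR.H443.exists_place_eq O
    (fun a => hO _ ⟨a, rfl⟩) hO' hx₀
  obtain ⟨k, hk⟩ := hdiv v
  obtain ⟨π, hπ⟩ := Fermat.Agent.Lib.RR.exists_ord_eq_one v
  have hπ0 : π ≠ 0 := Fermat.Agent.Lib.RR.ne_zero_of_ord_ne_zero v (by rw [hπ]; exact one_ne_zero)
  have ht0 : π ^ (-k) ≠ 0 := zpow_ne_zero _ hπ0
  have hfg : f / g ≠ 0 := div_ne_zero hf hg
  have hord : v.ord ((f / g) * (π ^ (-k)) ^ m) = 0 := by
    rw [v.ord_mul hfg (pow_ne_zero _ ht0), div_eq_mul_inv, v.ord_mul hf (inv_ne_zero hg),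
      v.ord_inv, Fermat.Agent.Lib.RR.ord_pow, v.ord_zpow, hπ]
    have : v.ord f = v.ord g + m * k := by linarith
    rw [this]
    ring
  refine ⟨π ^ (-k), ht0, ?_, ?_⟩
  · rw [← hv]
    exact Fermat.Agent.Lib.RR.mem_of_ord_nonneg v (by rw [hord])
  · rw [← hv]
    exact Fermat.Agent.Lib.RR.mem_of_ord_nonneg v (by rw [v.ord_inv, hord, neg_zero])

/-- **`u ≡ 1 mod w`** in a concrete family. -/
theorem sub_one_mul_inv_mem_V {A : ValuationSubring Qb} {𝓕 : Set (Alg.Model (OmG F₀))}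
    (hc : ConcreteFamily F₀ A 𝓕) {p : Alg.Model (OmG F₀)} (hp : p ∈ 𝓕)
    (hw : p.2.2.2.2 ∈ p.2.2.1) (hw0 : p.2.2.2.2 ≠ 0)
    (hRE : ∀ r ∈ p.2.2.1, r ∈ p.1) (hEF : p.1 ≤ p.2.1)
    (hgen : ∀ r ∈ p.2.2.1, r⁻¹ ∉ p.2.2.1 → r * (p.2.2.2.2)⁻¹ ∈ p.2.2.1)
    {U₁ U₂ : LaurentSeries A} (h₁ : coeffMap A.subtype U₁ ∈ laurentBaseChange Qb F₀)
    (h₂ : coeffMap A.subtype U₂ ∈ laurentBaseChange Qb F₀)
    (hU₂ : coeffMap (IsLocalRing.residue A) U₂ ≠ 0)
    (hred : coeffMap (IsLocalRing.residue A) U₁ = coeffMap (IsLocalRing.residue A) U₂)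
    (hf₁ : (⟨_, h₁⟩ : OmG F₀) ∈ p.2.1) (hf₂ : (⟨_, h₂⟩ : OmG F₀) ∈ p.2.1) :
    ((⟨_, h₁⟩ : OmG F₀) / (⟨_, h₂⟩ : OmG F₀) - 1) * (p.2.2.2.2)⁻¹ ∈ p.2.2.2.1 := by
  obtain ⟨Ec, Fc, R, V, w⟩ := p
  simp only at hw hw0 hRE hEF hgen hf₁ hf₂ ⊢
  set f₁ : OmG F₀ := ⟨_, h₁⟩ with hf₁def
  set f₂ : OmG F₀ := ⟨_, h₂⟩ with hf₂def
  have hf₂0 : f₂ ≠ 0 := by
    intro h0
    exact series_ne_zero_of_red_ne_zero hU₂ (congrArg Subtype.val h0)
  obtain ⟨w', hw'⟩ := hc.E_const _ hp w (hRE w hw)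
  have hw'0 : w' ≠ 0 := by
    rintro rfl
    exact hw0 (by rw [← hw', map_zero])
  have hwF : w ∈ Fc := hEF (hRE w hw)
  set f : OmG F₀ := (f₁ - f₂) * w⁻¹ with hf
  have hfF : f ∈ Fc := mul_mem (sub_mem hf₁ hf₂) (inv_mem hwF)
  -- coefficients of `f`
  have hcoeff : ∀ n : ℤ, (f : LaurentSeries Qb).coeff n
      = ((U₁.coeff n : Qb) - (U₂.coeff n : Qb)) * w'⁻¹ := by
    intro n
    have e1 : (f : LaurentSeries Qb) = (coeffMap A.subtype U₁ - coeffMap A.subtype U₂)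
        * (algebraMap Qb (LaurentSeries Qb) w')⁻¹ := by
      rw [hf, ← hw']
      rfl
    rw [e1, ← map_inv₀, algebraMap_laurentSeries_eq_single, HahnSeries.coeff_mul_single_zero,
      HahnSeries.coeff_sub, coeffMap_coeff, coeffMap_coeff]
    rfl
  have hcoeffA : ∀ n : ℤ, (f : LaurentSeries Qb).coeff n ∈ A := by
    intro n
    rw [hcoeff]
    set d : A := U₁.coeff n - U₂.coeff n with hd
    have hdval : ((U₁.coeff n : Qb) - (U₂.coeff n : Qb)) = (d : Qb) := rfl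
    rw [hdval]
    have hdE : algebraMap Qb (OmG F₀) (d : Qb) ∈ Ec := by
      have h := hc.coeff_mem _ hp (f₁ - f₂) (sub_mem hf₁ hf₂) n
      have e2 : ((f₁ - f₂ : OmG F₀) : LaurentSeries Qb).coeff n = (d : Qb) := by
        show (coeffMap A.subtype U₁ - coeffMap A.subtype U₂).coeff n = _
        rw [HahnSeries.coeff_sub, coeffMap_coeff, coeffMap_coeff]
        rfl
      rwa [e2] at h
    have hres : IsLocalRing.residue A d = 0 := by
      have := congrArg (fun x => x.coeff n) hred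
      simp only [coeffMap_coeff] at this
      rw [hd, map_sub, this, sub_self]
    have hnu : ¬ IsUnit d := by
      rw [IsLocalRing.residue_eq_zero_iff] at hres
      exact (IsLocalRing.mem_maximalIdeal _).mp hres
    by_cases hd0 : (d : Qb) = 0
    · rw [hd0, zero_mul]
      exact A.zero_mem
    have hr : algebraMap Qb (OmG F₀) (d : Qb) ∈ R := (hc.R_iff _ hp _).mpr ⟨d.2, hdE⟩
    have hr' : (algebraMap Qb (OmG F₀) (d : Qb))⁻¹ ∉ R := by
      intro hmem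
      rw [← map_inv₀] at hmem
      have hbA : (d : Qb)⁻¹ ∈ A := ((hc.R_iff _ hp _).mp hmem).1
      apply hnu
      refine IsUnit.of_mul_eq_one (⟨(d : Qb)⁻¹, hbA⟩ : A) (Subtype.ext ?_)
      change (d : Qb) * (d : Qb)⁻¹ = 1
      rw [mul_inv_cancel₀ hd0]
    have h3 := hgen _ hr hr'
    rw [← hw', ← map_inv₀, ← map_mul] at h3
    exact ((hc.R_iff _ hp _).mp h3).1
  have hfV : f ∈ V := hc.int_mem_V _ hp f hfF hcoeffA
  have hf₂V : f₂⁻¹ ∈ V := hc.unit_V _ hp f₂ hf₂ U₂ rfl hU₂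
  have : (f₁ / f₂ - 1) * w⁻¹ = f * f₂⁻¹ := by
    rw [hf]
    field_simp
  rw [this]
  exact V.mul_mem hfV hf₂V

/-- **GENERIC GLUE.**  `GoodFamily` + `ConcreteFamily` + ALG ⟹ CORE, for every prime `m ≠ ℓ`. -/
theorem coreGen_of_family {ℓ : ℕ} (hℓ : ℓ.Prime) (A : ValuationSubring Qb)
    (hA : A.LiesOverPrime ℓ) {x : OmG F₀} {S : Finset (OmG F₀)}
    {𝓕 : Set (Alg.Model (OmG F₀))}
    [FiniteDimensional (IntermediateField.adjoin Qb {x}) (OmG F₀)]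
    (hfam : Alg.GoodFamily (LcG F₀) x S 𝓕) (hc : ConcreteFamily F₀ A 𝓕)
    (halg : Alg.AlgMainStatement (LcG F₀) x S 𝓕)
    (m : ℕ) (hmp : m.Prime) (hm : ¬ ℓ ∣ m) : CoreGen F₀ A m := by
  classical
  intro U₁ U₂ h₁ h₂ hU₂ hred hdiv
  set f₁ : OmG F₀ := ⟨_, h₁⟩ with hf₁def
  set f₂ : OmG F₀ := ⟨_, h₂⟩ with hf₂def
  have hU₁ : coeffMap (IsLocalRing.residue A) U₁ ≠ 0 := by rw [hred]; exact hU₂
  have hf₁0 : f₁ ≠ 0 := fun h0 =>
    series_ne_zero_of_red_ne_zero hU₁ (congrArg Subtype.val h0)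
  have hf₂0 : f₂ ≠ 0 := fun h0 =>
    series_ne_zero_of_red_ne_zero hU₂ (congrArg Subtype.val h0)
  obtain ⟨p, hp, hf₁, hf₂⟩ := hc.exists_member f₁ f₂
  have hgood := hfam.good p hp
  have hxtr : Transcendental Qb x := by
    intro halgx
    apply hgood.x_transcendental
    obtain ⟨P, hP0, hP⟩ := halgx
    let e : Qb →+* (LcG F₀) := (algebraMap Qb (OmG F₀)).rangeRestrictField
    refine ⟨P.map e, ?_, ?_⟩
    · exact (Polynomial.map_ne_zero_iff e.injective).mpr hP0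
    · rw [Polynomial.aeval_def, Polynomial.eval₂_map]
      rw [Polynomial.aeval_def] at hP
      exact hP
  have hm0 : m ≠ 0 := hmp.ne_zero
  have hu0 : f₁ / f₂ ≠ 0 := div_ne_zero hf₁0 hf₂0
  have huV : (f₁ / f₂ - 1) * (p.2.2.2.2)⁻¹ ∈ p.2.2.2.1 :=
    sub_one_mul_inv_mem_V hc hp hgood.w_mem hgood.w_ne_zero (fun r hr => hgood.R_le hr)
      hgood.E_le_F hgood.w_gen h₁ h₂ hU₂ hred hf₁ hf₂
  have hmR : ((m : OmG F₀))⁻¹ ∈ p.2.2.1 := by
    have h1 : ((m : Qb))⁻¹ ∈ A :=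
      Fermat.Agent.S18.H965.natCast_inv_mem_valuationSubring hℓ A hA hm
    have h2 : algebraMap Qb (OmG F₀) ((m : Qb))⁻¹ = ((m : OmG F₀))⁻¹ := by
      rw [map_inv₀, map_natCast]
    rw [← h2]
    refine (hc.R_iff _ hp _).mpr ⟨h1, ?_⟩
    rw [h2]
    exact inv_mem (natCast_mem _ m)
  obtain ⟨y, c, hcL, hc0, huy⟩ := halg hfam p hp m hmp hmR (f₁ / f₂) (div_mem hf₁ hf₂) hu0 huV
    (exists_unit_twistG hxtr hf₁0 hf₂0 hdiv)
  obtain ⟨c', rfl⟩ := hcL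
  refine ⟨c', y, ?_, ?_, ?_⟩
  · rintro rfl
    exact hc0 (map_zero _)
  · rintro rfl
    rw [zero_pow hm0, mul_zero] at huy
    exact hu0 huy
  · rw [← huy, div_mul_cancel₀ _ hf₂0]

end Fermat.Agent.S48.Red1
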