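import Fermat.Agent.S48.Red1.Core
import Fermat.Agent.S48.H908.CoreF1
import Fermat.Agent.S18.H634.Coord

/-!
# S48 / RES (Tower A1), sub-tower A1-RED, node R4: the MOD deliverable for `F1 M` (helper588)

Adapter from the assembly `Red1/Asm.lean` (`goodFamily_top`) to helper908's target
`H908.Core1.Mod1Hyp` (`S48/H908/CoreF1.lean`; `core1 : Mod1Hyp → FinHyp → DegHyp → CoreG …`).

* `intGen_F1`                 : `F1 M` is generated by series with integer coefficients;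
* `hasGoodFamilyMin_of_family`: `GoodFamily + ConcreteFamily ⟹ H908.Core1.HasGoodFamilyMin`;
* `LeavesF1`, `BranchF1`      : the leaves of `Asm.lean` for `F₀ = F1 M`;
* `mod1Hyp_of_leaves`         : `LeavesF1 → BranchF1 → H908.Core1.Mod1Hyp`.
-/

set_option autoImplicit false

noncomputable section

namespace Fermat.Agent.S48.Red1

open ModularCurve AlgebraicCurve HahnSeries Fermat.Agent.S18 Fermat.Agent.S18.Alg
open Fermat.Agent.S18.Mod Fermat.Agent.S48.H248 Fermat.Agent.S18.H107 Fermat.Agent.S48.F1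

/-- `coeffMap` commutes with `q ↦ q^n`. -/
theorem coeffMap_qExpand_red1 {R S : Type*} [CommRing R] [CommRing S] (f : R →+* S) (n : ℕ)
    [NeZero n] (x : LaurentSeries R) :
    coeffMap f (qExpand R n x) = qExpand S n (coeffMap f x) := by
  ext k
  by_cases hk : (n : ℤ) ∣ k
  · obtain ⟨m, rfl⟩ := hk
    rw [coeffMap_coeff, qExpand_coeff_mul, qExpand_coeff_mul, coeffMap_coeff]
  · rw [coeffMap_coeff, qExpand_coeff_of_not_dvd n _ hk, qExpand_coeff_of_not_dvd n _ hk,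
      map_zero]

/-- `F1 M` is generated over `ℚ` by series with integer coefficients. -/
theorem intGen_F1 (M : ℕ) : IntGen (F1 M) := by
  refine ⟨{X | (∃ (d : ℕ) (_ : NeZero d), d ∣ M ∧ X = qExpand ℤ d (jqModC ℤ)) ∨
    ∃ a : ZMod M, a ≠ 0 ∧ X = divGenC ℤ M a}, ?_⟩
  unfold F1
  congr 1
  ext y
  constructor
  · rintro (⟨d, hd, hdM, rfl⟩ | ⟨a, ha, rfl⟩)
    · refine ⟨qExpand ℤ d (jqModC ℤ), Or.inl ⟨d, hd, hdM, rfl⟩, ?_⟩
      rw [coeffMap_qExpand_red1, coeffMap_jqModC]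
      rfl
    · refine ⟨divGenC ℤ M a, Or.inr ⟨a, ha, rfl⟩, ?_⟩
      rw [coeffMap_divGenC]
      rfl
  · rintro ⟨X, (⟨d, hd, hdM, rfl⟩ | ⟨a, ha, rfl⟩), rfl⟩
    · left
      refine ⟨d, hd, hdM, ?_⟩
      rw [coeffMap_qExpand_red1, coeffMap_jqModC]
      rfl
    · right
      refine ⟨a, ha, ?_⟩
      rw [coeffMap_divGenC]
      rfl

/-- Adapter: a concrete good family is a minimal MOD deliverable in the sense of helper908. -/
theorem hasGoodFamilyMin_of_family {F₀ : IntermediateField ℚ (LaurentSeries ℚ)} {ℓ : ℕ}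
    (hℓ : ℓ.Prime) (A : ValuationSubring Qb) (hA : A.LiesOverPrime ℓ) {x : OmG F₀}
    {S : Finset (OmG F₀)} {𝓕 : Set (Model (OmG F₀))}
    (hfam : GoodFamily (LcG F₀) x S 𝓕) (hc : ConcreteFamily F₀ A 𝓕)
    (Fk : IntermediateField (IsLocalRing.ResidueField A)
      (LaurentSeries (IsLocalRing.ResidueField A))) (m : ℕ) (hm : ¬ ℓ ∣ m) :
    Fermat.Agent.S48.H908.Core1.HasGoodFamilyMin F₀ A Fk m x S := by
  refine ⟨𝓕, hfam, fun U₁ U₂ h₁ h₂ hred => ?_⟩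
  obtain ⟨p, hp, hf₁, hf₂⟩ := hc.exists_member ⟨_, h₁.1⟩ ⟨_, h₂.1⟩
  have hgood := hfam.good p hp
  have hmR : ((m : OmG F₀))⁻¹ ∈ p.2.2.1 := by
    have h1 : ((m : Qb))⁻¹ ∈ A :=
      Fermat.Agent.S18.H965.natCast_inv_mem_valuationSubring hℓ A hA hm
    have h2 : algebraMap Qb (OmG F₀) ((m : Qb))⁻¹ = ((m : OmG F₀))⁻¹ := by
      rw [map_inv₀, map_natCast]
    rw [← h2]
    refine (hc.R_iff _ hp _).mpr ⟨h1, ?_⟩
    rw [h2]
    exact inv_mem (natCast_mem _ m)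
  exact ⟨p, hp, hmR, div_mem hf₁ hf₂,
    sub_one_mul_inv_mem_V hc hp hgood.w_mem hgood.w_ne_zero (fun r hr => hgood.R_le hr)
      hgood.E_le_F hgood.w_gen h₁.1 h₂.1 h₂.2.2 hred hf₁ hf₂⟩

/-- **Leaves for `F1 M`**: `TopLeaves` at all number fields containing a finite set `T₀` of
constants (e.g. `ζ_M`), for all `p ∤ M` and `A` over `p`. -/
def LeavesF1 : Prop :=
  ∀ (M p : ℕ) [NeZero M], p.Prime → ¬ p ∣ M → ∀ A : ValuationSubring Qb, A.LiesOverPrime p →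
    ∃ T₀ : Finset Qb, ∀ (E : IntermediateField ℚ Qb) (w₀ : Qb), FiniteDimensional ℚ E →
      (∀ a ∈ T₀, a ∈ E) → IsUnifG A E.toSubfield w₀ →
      TopLeaves (F1 M) A E.toSubfield w₀ (iotaG M (F1 M) (full_le_F1 M) (jOm M))

/-- **Branch leaf for `F1 M`**: `ℚ̄·F1(M) / ℚ̄(j)` is unramified outside `0, 1728, ∞`, with `e ≤ 3`
over `0` and `e ≤ 2` over `1728`. -/
def BranchF1 : Prop :=
  ∀ (M : ℕ) [NeZero M], BranchJ107 (LcG (F1 M)) (iotaG M (F1 M) (full_le_F1 M) (jOm M))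

/-- **R4 for `F1 M`**: the MOD deliverable at the good levels, from the leaves. -/
theorem mod1Hyp_of_leaves (hL : LeavesF1) (hB : BranchF1) :
    Fermat.Agent.S48.H908.Core1.Mod1Hyp := by
  intro M p hM hp hpM h3 h2 A hA m _ hpm
  have : NeZero M := ⟨hM⟩
  have : Fact p.Prime := ⟨hp⟩
  obtain ⟨x, S, hx⟩ := Fermat.Agent.S18.H634.node_coord M hpM h3 h2
  obtain ⟨T₀, hleaf⟩ := hL M p hp hpM A hA
  obtain ⟨𝓕', hfam, hc⟩ :=
    goodFamily_top (full_le_F1 M) (intGen_F1 M) hpM A hA hx T₀ hleaf (hB M)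
  exact ⟨_, _, hasGoodFamilyMin_of_family hp A hA hfam hc ⊤ m hpm⟩

end Fermat.Agent.S48.Red1
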