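import Fermat.Agent.S48.Red1.StepQ
import Fermat.Agent.S48.Red1.GlueGen
import Fermat.Agent.S48.H248.IV
import Fermat.Agent.S48.F1.Defs

/-!
# S48 / RES (Tower A1), sub-tower A1-RED: the concrete models on `Ω' = Q̄ · F₀` (helper588)

GENERIC in the field `F₀ ⊆ ℚ((q))` (`F₀ = F1 M`, `F1p M 2`, `F1p M 3`, …).  For a subfield `E` of
`Q̄` (a number field in the application) and a valuation subring `A` of `Q̄`:

* `cstG`, `exG`     : constants and `q`-expansion of `OmG F₀`;
* `embG`            : `F₀ → OmG F₀`;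
* `FcT F₀ E`        : `E · F₀` (generated by the constants of `E` and the image of `F₀`);
* `VcT F₀ A E`      : the Gauss valuation ring of `FcT F₀ E` (`H248.VRing`);
* `IntGen F₀`       : `F₀` is generated over `ℚ` by series with INTEGER coefficients.

Results: coefficients of elements of `FcT F₀ E` lie in `E`; every element of `FcT F₀ E` is a
quotient of integral series (`IntGen`); `E` is algebraically closed in `FcT F₀ E`;
`FcT F₀ E · Q̄ = Ω'`; monotonicity in `E`.
-/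

set_option autoImplicit false

noncomputable section

namespace Fermat.Agent.S48.Red1

open ModularCurve AlgebraicCurve HahnSeries Fermat.Agent.S18 Fermat.Agent.S18.Alg
open Fermat.Agent.S48.H248

variable (F₀ : IntermediateField ℚ (LaurentSeries ℚ))

/-- The constants `Q̄ → Ω'`. -/
def cstG : Qb →+* OmG F₀ := algebraMap Qb (OmG F₀)

/-- The `q`-expansion `Ω' → Q̄((q))`. -/
def exG : OmG F₀ →+* LaurentSeries Qb := algebraMap (OmG F₀) (LaurentSeries Qb)

@[simp] theorem exG_apply (f : OmG F₀) : exG F₀ f = (f : LaurentSeries Qb) := rfl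

theorem exG_cstG (c : Qb) : exG F₀ (cstG F₀ c) = HahnSeries.C c := by
  show algebraMap Qb (LaurentSeries Qb) c = HahnSeries.C c
  rw [algebraMap_laurentSeries_eq_single]
  rfl

theorem cstG_eq (c : Qb) : cstG F₀ c = algebraMap Qb (OmG F₀) c := rfl

/-- `F₀ → Ω'`. -/
def embG : F₀ →+* OmG F₀ where
  toFun g := ⟨coeffEmb Qb (g : LaurentSeries ℚ), coeffEmb_mem_laurentBaseChange Qb g.2⟩
  map_one' := Subtype.ext (map_one (coeffEmb Qb))
  map_mul' _ _ := Subtype.ext (map_mul (coeffEmb Qb) _ _)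
  map_zero' := Subtype.ext (map_zero (coeffEmb Qb))
  map_add' _ _ := Subtype.ext (map_add (coeffEmb Qb) _ _)

@[simp] theorem coe_embG (g : F₀) :
    ((embG F₀ g : OmG F₀) : LaurentSeries Qb) = coeffEmb Qb (g : LaurentSeries ℚ) := rfl

/-- `E · F₀` inside `Ω'`. -/
def FcT (E : Subfield Qb) : Subfield (OmG F₀) :=
  Subfield.closure ((EcG E (cstG F₀) : Set (OmG F₀)) ∪ Set.range (embG F₀))

/-- The Gauss valuation ring of `E · F₀`. -/
def VcT (A : ValuationSubring Qb) (E : Subfield Qb) : Subring (OmG F₀) :=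
  VRing A E (exG F₀) (FcT F₀ E)

/-- `F₀` is generated over `ℚ` by series with integer coefficients. -/
def IntGen : Prop :=
  ∃ G₀ : Set (LaurentSeries ℤ),
    F₀ = IntermediateField.adjoin ℚ (⇑(coeffMap (Int.castRingHom ℚ)) '' G₀)

variable {F₀}

theorem EcG_le_FcT (E : Subfield Qb) : EcG E (cstG F₀) ≤ FcT F₀ E :=
  fun _ hy => Subfield.subset_closure (Or.inl hy)

theorem cstG_mem_FcT {E : Subfield Qb} {c : Qb} (hc : c ∈ E) : cstG F₀ c ∈ FcT F₀ E :=
  EcG_le_FcT E ((mem_EcG_iff _).mpr ⟨c, hc, rfl⟩)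

theorem embG_mem_FcT (E : Subfield Qb) (g : F₀) : embG F₀ g ∈ FcT F₀ E :=
  Subfield.subset_closure (Or.inr ⟨g, rfl⟩)

theorem FcT_mono {E E' : Subfield Qb} (h : E ≤ E') : FcT F₀ E ≤ FcT F₀ E' := by
  unfold FcT
  rw [Subfield.closure_le]
  rintro y (hy | hy)
  · obtain ⟨c, hc, rfl⟩ := (mem_EcG_iff _).mp hy
    exact cstG_mem_FcT (h hc)
  · exact Subfield.subset_closure (Or.inr hy)

theorem isInt_mono {A : ValuationSubring Qb} {E E' : Subfield Qb} (h : E ≤ E')
    {F F' : Subfield (OmG F₀)} (hF : F ≤ F') {U : LaurentSeries A}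
    (hU : IsInt A E (exG F₀) F U) : IsInt A E' (exG F₀) F' U :=
  ⟨fun n => h (hU.1 n), let ⟨f, hf, hfU⟩ := hU.2; ⟨f, hF hf, hfU⟩⟩

theorem VcT_mono (A : ValuationSubring Qb) {E E' : Subfield Qb} (h : E ≤ E') :
    VcT F₀ A E ≤ VcT F₀ A E' := by
  rintro f ⟨hf, U₁, U₂, h₁, h₂, hr, hfU⟩
  exact ⟨FcT_mono h hf, U₁, U₂, isInt_mono h (FcT_mono h) h₁, isInt_mono h (FcT_mono h) h₂,
    hr, hfU⟩

/-! ### Coefficients -/

/-- The subfield of `Ω'` of series all of whose coefficients lie in `E`. -/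
def coeffFieldG (F₀ : IntermediateField ℚ (LaurentSeries ℚ)) (E : Subfield Qb) :
    Subfield (OmG F₀) :=
  ((coeffMap (E.subtype)).fieldRange).comap (exG F₀)

theorem coeff_mem_of_mem_coeffFieldG {E : Subfield Qb} {f : OmG F₀}
    (hf : f ∈ coeffFieldG F₀ E) (n : ℤ) : ((f : LaurentSeries Qb)).coeff n ∈ E := by
  obtain ⟨y, hy⟩ := hf
  have h : (f : LaurentSeries Qb) = coeffMap (E.subtype) y := hy.symm
  rw [h, coeffMap_coeff]
  exact (y.coeff n).2

theorem FcT_le_coeffFieldG (E : Subfield Qb) : FcT F₀ E ≤ coeffFieldG F₀ E := by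
  unfold FcT
  rw [Subfield.closure_le]
  rintro y (hy | ⟨g, rfl⟩)
  · obtain ⟨c, hc, rfl⟩ := (mem_EcG_iff _).mp hy
    refine ⟨HahnSeries.single 0 ⟨c, hc⟩, ?_⟩
    rw [coeffMap_single]
    show _ = exG F₀ (cstG F₀ c)
    rw [exG_cstG]
    rfl
  · refine ⟨coeffMap (algebraMap ℚ (↥E)) (g : LaurentSeries ℚ), ?_⟩
    rw [coeffMap_coeffMap]
    show _ = coeffEmb Qb (g : LaurentSeries ℚ)
    unfold coeffEmb
    exact coeffMap_congr (RingHom.ext fun c => rfl) _

/-- The `q`-expansion coefficients of the elements of `E · F₀` lie in `E`. -/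
theorem coeff_mem_of_mem_FcT {E : Subfield Qb} {f : OmG F₀} (hf : f ∈ FcT F₀ E) (n : ℤ) :
    ((f : LaurentSeries Qb)).coeff n ∈ E :=
  coeff_mem_of_mem_coeffFieldG (FcT_le_coeffFieldG E hf) n

/-! ### Quotients of integral series -/

theorem intCast_mem_valuationSubring (A : ValuationSubring Qb) (n : ℤ) : (n : Qb) ∈ A :=
  intCast_mem A n

/-- The image in `Ω'` of a series with integer coefficients is an integral series. -/
theorem isInt_of_intSeries (A : ValuationSubring Qb) (E : Subfield Qb) (X : LaurentSeries ℤ)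
    (g : F₀) (hg : (g : LaurentSeries ℚ) = coeffMap (Int.castRingHom ℚ) X) :
    IsInt A E (exG F₀) (FcT F₀ E) (coeffMap (Int.castRingHom A) X) ∧
      exG F₀ (embG F₀ g) = ivInc A (coeffMap (Int.castRingHom A) X) := by
  have hval : exG F₀ (embG F₀ g) = ivInc A (coeffMap (Int.castRingHom A) X) := by
    show coeffEmb Qb (g : LaurentSeries ℚ) = _
    rw [hg]
    unfold coeffEmb ivInc
    rw [coeffMap_coeffMap, coeffMap_coeffMap]
    exact coeffMap_congr (RingHom.ext_int _ _) _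
  refine ⟨⟨fun n => ?_, embG F₀ g, embG_mem_FcT E g, hval⟩, hval⟩
  rw [coeffMap_coeff]
  show (((Int.castRingHom A) (X.coeff n) : A) : Qb) ∈ E
  have : (((Int.castRingHom A) (X.coeff n) : A) : Qb) = ((X.coeff n : ℤ) : Qb) := by
    simp
  rw [this]
  exact intCast_mem E _

/-- Every element of `E · F₀` is a quotient of integral series, if `F₀` is generated by series
with integer coefficients. -/
theorem isRatio_of_mem_FcT (hF₀ : IntGen F₀) (A : ValuationSubring Qb) (E : Subfield Qb)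
    {f : OmG F₀} (hf : f ∈ FcT F₀ E) : IsRatio A E (exG F₀) (FcT F₀ E) f := by
  obtain ⟨G₀, hG₀⟩ := hF₀
  have hEF : ∀ c ∈ E, cstG F₀ c ∈ FcT F₀ E := fun c hc => cstG_mem_FcT hc
  refine isRatio_of_mem_closure (cstG F₀) (exG_cstG F₀) hEF (Set.range (embG F₀)) ?_ hf
  rintro _ ⟨g, rfl⟩
  -- induction on `g ∈ F₀ = ℚ(G₀)`
  have key : ∀ z : LaurentSeries ℚ, ∀ hz : z ∈ F₀,
      IsRatio A E (exG F₀) (FcT F₀ E) (embG F₀ ⟨z, hz⟩) := by
    intro z hz
    have hz' : z ∈ IntermediateField.adjoin ℚ (⇑(coeffMap (Int.castRingHom ℚ)) '' G₀) := by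
      rw [← hG₀]; exact hz
    induction hz' using IntermediateField.adjoin_induction with
    | mem y hy =>
      obtain ⟨X, -, rfl⟩ := hy
      obtain ⟨h1, h2⟩ := isInt_of_intSeries A E X ⟨_, hz⟩ rfl
      exact isRatio_of_isInt h1 h2
    | algebraMap c =>
      have : embG F₀ ⟨algebraMap ℚ (LaurentSeries ℚ) c, hz⟩ = cstG F₀ (algebraMap ℚ Qb c) := by
        apply Subtype.ext
        show coeffEmb Qb (algebraMap ℚ (LaurentSeries ℚ) c) = algebraMap Qb (LaurentSeries Qb) _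
        rw [algebraMap_laurentSeries_eq_single, algebraMap_laurentSeries_eq_single]
        unfold coeffEmb
        rw [coeffMap_single]
      rw [this]
      refine isRatio_cst (cstG F₀) (exG_cstG F₀) hEF ?_
      rw [eq_ratCast]
      exact SubfieldClass.ratCast_mem E c
    | add y y' hy hy' ihy ihy' =>
      have hyF : y ∈ F₀ := by rw [hG₀]; exact hy
      have hyF' : y' ∈ F₀ := by rw [hG₀]; exact hy'
      have : embG F₀ ⟨y + y', hz⟩ = embG F₀ ⟨y, hyF⟩ + embG F₀ ⟨y', hyF'⟩ := by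
        rw [← map_add]; rfl
      rw [this]
      exact (ihy hyF).add (ihy' hyF')
    | inv y hy ihy =>
      have hyF : y ∈ F₀ := by rw [hG₀]; exact hy
      have : embG F₀ ⟨y⁻¹, hz⟩ = (embG F₀ ⟨y, hyF⟩)⁻¹ := by
        rw [← map_inv₀]; rfl
      rw [this]
      exact (ihy hyF).inv
    | mul y y' hy hy' ihy ihy' =>
      have hyF : y ∈ F₀ := by rw [hG₀]; exact hy
      have hyF' : y' ∈ F₀ := by rw [hG₀]; exact hy'
      have : embG F₀ ⟨y * y', hz⟩ = embG F₀ ⟨y, hyF⟩ * embG F₀ ⟨y', hyF'⟩ := by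
        rw [← map_mul]; rfl
      rw [this]
      exact (ihy hyF).mul (ihy' hyF')
  exact key g.1 g.2

/-! ### The compositum -/

theorem closure_FcT_union_LcG (E : Subfield Qb) :
    Subfield.closure ((FcT F₀ E : Set (OmG F₀)) ∪ (LcG F₀ : Set (OmG F₀))) = ⊤ := by
  rw [eq_top_iff]
  intro y _
  set C := Subfield.closure ((FcT F₀ E : Set (OmG F₀)) ∪ (LcG F₀ : Set (OmG F₀))) with hC
  have hle : (laurentBaseChange Qb F₀).toSubfield ≤ C.map (exG F₀) := by
    show Subfield.closure (Set.range (algebraMap Qb (LaurentSeries Qb)) ∪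
      (⇑(coeffEmb Qb) '' (F₀ : Set (LaurentSeries ℚ)))) ≤ _
    rw [Subfield.closure_le]
    rintro z (⟨c, rfl⟩ | ⟨g, hg, rfl⟩)
    · exact ⟨algebraMap Qb (OmG F₀) c, Subfield.subset_closure (Or.inr ⟨c, rfl⟩), rfl⟩
    · exact ⟨embG F₀ ⟨g, hg⟩, Subfield.subset_closure (Or.inl (embG_mem_FcT E _)), rfl⟩
  obtain ⟨y', hy', hyy⟩ := hle y.2
  have : y' = y := Subtype.ext hyy
  rw [← this]
  exact hy'

/-! ### `E` is algebraically closed in `E · F₀` -/

/-- An element of `Ω'` algebraic over the constants is a constant. -/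
theorem exists_cst_of_isAlgebraic {f : OmG F₀} (hf : IsAlgebraic Qb f) :
    ∃ c : Qb, cstG F₀ c = f := by
  have hint : IsIntegral Qb f := hf.isIntegral
  have hdeg : (minpoly Qb f).degree = 1 :=
    IsAlgClosed.degree_eq_one_of_irreducible Qb (minpoly.irreducible hint)
  have hmem := minpoly.mem_range_of_degree_eq_one Qb f hdeg
  obtain ⟨c, hc⟩ := hmem
  exact ⟨c, hc⟩

theorem isAlgebraic_Qb_of_isAlgebraic_EcG {E : Subfield Qb} {f : OmG F₀}
    (hf : IsAlgebraic (EcG E (cstG F₀)) f) : IsAlgebraic Qb f := by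
  obtain ⟨P, hP0, hP⟩ := hf
  let e := H588.subfieldMapEquiv (cstG F₀) E
  let ψ : ↥(EcG E (cstG F₀)) →+* Qb := E.subtype.comp (e.symm : ↥(E.map (cstG F₀)) →+* ↥E)
  have hψ : ∀ y, algebraMap Qb (OmG F₀) (ψ y) = (y : OmG F₀) := by
    intro y
    obtain ⟨c, rfl⟩ := e.surjective y
    show cstG F₀ (E.subtype (e.symm (e c))) = _
    rw [RingEquiv.symm_apply_apply]
    rfl
  refine ⟨P.map ψ, (Polynomial.map_ne_zero_iff ψ.injective).mpr hP0, ?_⟩
  rw [Polynomial.aeval_def, Polynomial.eval₂_map]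
  rw [Polynomial.aeval_def] at hP
  have hcomp : (algebraMap Qb (OmG F₀)).comp ψ
      = algebraMap (↥(EcG E (cstG F₀))) (OmG F₀) := RingHom.ext hψ
  rw [hcomp]
  exact hP

/-- **`E` is algebraically closed in `E · F₀`** (field `E_closed_in_F` of `GoodModel`). -/
theorem E_closed_FcT (E : Subfield Qb) :
    ∀ f ∈ FcT F₀ E, IsAlgebraic (EcG E (cstG F₀)) f → f ∈ EcG E (cstG F₀) := by
  intro f hf halg
  obtain ⟨c, rfl⟩ := exists_cst_of_isAlgebraic (isAlgebraic_Qb_of_isAlgebraic_EcG halg)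
  refine (mem_EcG_iff _).mpr ⟨c, ?_, rfl⟩
  have h := coeff_mem_of_mem_FcT hf 0
  have h2 : ((cstG F₀ c : OmG F₀) : LaurentSeries Qb) = HahnSeries.C c := exG_cstG F₀ c
  rw [h2, HahnSeries.C_apply, HahnSeries.coeff_single_same] at h
  exact h

end Fermat.Agent.S48.Red1
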