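import Fermat.Agent.S48.H588.StepU

/-!
# S48 / RES (Tower A1), sub-tower A1-RED: one step of the tower of good models, `q`-expansion
principle SUPPLIED at the top (helper588)

`H588/StepU.lean` climbs a step `Ω → Ω'` with a finite group acting on `Ω'` (Galois descent of the
`q`-expansion principle).  For the `Γ₁`-fields the `q`-expansion principle comes from node IGUSA1
(`H856.IgusaData.qep_fin`, in the full-level field) and no group on `Ω'` is available.  This file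
is the group-free version:

* `StepQ`            : `StepCore` with the fields `G_*` replaced by `qep_fin`, `qep_inf`;
* `baseModel_stepQ`  : `BaseModel107` (base) + `StepQ` ⟹ `BaseModel107` (top);
* `goodModel_stepQ`  : `GoodModel` (base) + `StepQ` + `unramified` (top) ⟹ `GoodModel` (top);
* `goodFamily_restrict` : the members of a `GoodFamily` whose constant field contains a given
                       finite set of constants form a `GoodFamily`;
* `goodFamily_stepQ` : the same for a directed family.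
-/

set_option autoImplicit false

namespace Fermat.Agent.S48.Red1

open Fermat.Agent.S18.Alg Fermat.Agent.S18.H107 Fermat.Agent.S48.H588 Polynomial

variable {Ω Ω' : Type*} [Field Ω] [Field Ω']

/-- One step of the tower, with the `q`-expansion principle supplied at the top. -/
structure StepQ (ι : Ω →+* Ω') (Lc Ec Fc : Subfield Ω) (R V : Subring Ω) (w x : Ω)
    (Fc' : Subfield Ω') (V' : Subring Ω') : Prop where
  F_le : Fc.map ι ≤ Fc'
  compositum : Subfield.closure ((Fc' : Set Ω') ∪ ((Lc.map ι : Subfield Ω') : Set Ω')) = ⊤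
  E_closed : ∀ f ∈ Fc', IsAlgebraic (Ec.map ι) f → f ∈ Ec.map ι
  finite : ∃ s : Finset Ω', (s : Set Ω') ⊆ Fc' ∧
    ∀ f ∈ Fc', f ∈ Submodule.span (ratField (Ec.map ι) (ι x)) (s : Set Ω')
  V_le : (V' : Set Ω') ⊆ Fc'
  V_total : ∀ f ∈ Fc', f ∈ V' ∨ f⁻¹ ∈ V'
  V_le_V' : V.map ι ≤ V'
  w_inv_not_mem : (ι w)⁻¹ ∉ V'
  V_gen : ∀ f ∈ V', f⁻¹ ∉ V' → f * (ι w)⁻¹ ∈ V'
  separable : ∀ f ∈ V', ∃ P : Polynomial Ω', (∀ i, P.coeff i ∈ polyRing (R.map ι) (ι x)) ∧
    P.eval f * (ι w)⁻¹ ∈ V' ∧ (Polynomial.derivative P).eval f ≠ 0 ∧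
    ((Polynomial.derivative P).eval f)⁻¹ ∈ V'
  qep_fin : ∀ b ∈ chart Fc' (R.map ι) (ι x), b * (ι w)⁻¹ ∈ V' →
    b * (ι w)⁻¹ ∈ chart Fc' (R.map ι) (ι x)
  qep_inf : ∀ b ∈ chart Fc' (R.map ι) (ι x)⁻¹, b * (ι w)⁻¹ ∈ V' →
    b * (ι w)⁻¹ ∈ chart Fc' (R.map ι) (ι x)⁻¹

section Step

variable {ι : Ω →+* Ω'} {Lc Ec Fc : Subfield Ω} {R V : Subring Ω} {w x : Ω} {S : Finset Ω}
  {Fc' : Subfield Ω'} {V' : Subring Ω'}

/-- The Gauss property climbs the step. -/
theorem gauss_stepQ (h : BaseModel107 Lc Ec Fc R V w x) (hVV : V.map ι ≤ V') :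
    ∀ P : Polynomial Ω', (∀ i, P.coeff i ∈ R.map ι) →
      (∃ i, P.coeff i ≠ 0 ∧ (P.coeff i)⁻¹ ∈ R.map ι) → (P.eval (ι x))⁻¹ ∈ V' := by
  intro P hP ⟨i, hi0, hi⟩
  have hlift : P ∈ Polynomial.lifts ι := by
    rw [Polynomial.lifts_iff_coeff_lifts]
    intro n
    obtain ⟨a, _, ha⟩ := hP n
    exact ⟨a, ha⟩
  obtain ⟨Q, rfl⟩ := (Polynomial.mem_lifts _).mp hlift
  have hQ : ∀ n, Q.coeff n ∈ R := by
    intro n
    have := hP n
    rw [coeff_map] at this
    exact (mem_subring_map_iff ι).mp this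
  have hQi : Q.coeff i ≠ 0 ∧ (Q.coeff i)⁻¹ ∈ R := by
    rw [coeff_map] at hi0 hi
    refine ⟨fun h0 => hi0 (by rw [h0, map_zero]), ?_⟩
    rw [← map_inv₀] at hi
    exact (mem_subring_map_iff ι).mp hi
  have h1 := h.gauss Q hQ ⟨i, hQi⟩
  have h2 : eval₂ ι (ι x) Q = ι (eval x Q) := by
    have := Polynomial.hom_eval₂ Q (RingHom.id Ω) ι x
    rw [RingHom.comp_id, eval₂_id] at this
    exact this.symm
  rw [eval_map, h2, ← map_inv₀]
  exact hVV ⟨_, h1, rfl⟩

/-- Finiteness climbs a step (finite over `ι(Fc)` ⟹ finite over `E(x)`). -/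
theorem finite_stepQ (h : BaseModel107 Lc Ec Fc R V w x) (hFF : Fc.map ι ≤ Fc')
    (hfin : ∃ s : Finset Ω', (s : Set Ω') ⊆ Fc' ∧
      ∀ f ∈ Fc', f ∈ Submodule.span (Fc.map ι) (s : Set Ω')) :
    ∃ s : Finset Ω', (s : Set Ω') ⊆ Fc' ∧
      ∀ f ∈ Fc', f ∈ Submodule.span (ratField (Ec.map ι) (ι x)) (s : Set Ω') := by
  classical
  obtain ⟨s₀, hs₀F, hs₀⟩ := h.finite
  obtain ⟨s₁, hs₁F, hs₁⟩ := hfin
  refine ⟨(s₀.image ι ×ˢ s₁).image (fun ab => ab.1 * ab.2), ?_, ?_⟩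
  · intro z hz
    simp only [Finset.coe_image, Set.mem_image, Finset.mem_coe, Finset.mem_product,
      Finset.mem_image, Prod.exists] at hz
    obtain ⟨a, b, ⟨⟨a₀, ha₀, rfl⟩, hb⟩, rfl⟩ := hz
    exact Fc'.mul_mem (hFF ⟨a₀, hs₀F ha₀, rfl⟩) (hs₁F hb)
  · intro f hf
    set K' := ratField (Ec.map ι) (ι x) with hK'
    set T : Submodule K' Ω' :=
      Submodule.span K' (((s₀.image ι ×ˢ s₁).image (fun ab => ab.1 * ab.2) : Finset Ω') : Set Ω')
      with hT
    have step1 : ∀ a ∈ Fc, ∀ b ∈ s₁, ι a * b ∈ T := by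
      intro a ha b hb
      have ha' := hs₀ a ha
      refine Submodule.span_induction (p := fun a _ => ι a * b ∈ T) ?_ ?_ ?_ ?_ ha'
      · intro a₀ ha₀
        refine Submodule.subset_span ?_
        simp only [Finset.coe_image, Set.mem_image, Finset.mem_coe, Finset.mem_product,
          Finset.mem_image, Prod.exists]
        exact ⟨ι a₀, b, ⟨⟨a₀, ha₀, rfl⟩, hb⟩, rfl⟩
      · simp
      · intro y z _ _ hy hz
        rw [map_add, add_mul]
        exact T.add_mem hy hz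
      · intro c y _ hy
        have hc : ι (c : Ω) ∈ K' := by
          rw [hK', ← ratField_map]
          exact ⟨c, c.2, rfl⟩
        have : ι (c • y) * b = (⟨ι (c : Ω), hc⟩ : K') • (ι y * b) := by
          rw [Subfield.smul_def, Subfield.smul_def, smul_eq_mul, smul_eq_mul, map_mul, mul_assoc]
        rw [this]
        exact T.smul_mem _ hy
    have stab : ∀ a ∈ Fc, ∀ t ∈ T, ι a * t ∈ T := by
      intro a ha t ht
      refine Submodule.span_induction (p := fun t _ => ι a * t ∈ T) ?_ ?_ ?_ ?_ ht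
      · intro z hz
        simp only [Finset.coe_image, Set.mem_image, Finset.mem_coe, Finset.mem_product,
          Finset.mem_image, Prod.exists] at hz
        obtain ⟨_, b, ⟨⟨a₀, ha₀, rfl⟩, hb⟩, rfl⟩ := hz
        have := step1 (a * a₀) (Fc.mul_mem ha (hs₀F ha₀)) b hb
        rwa [map_mul, mul_assoc] at this
      · simp
      · intro y z _ _ hy hz
        rw [mul_add]
        exact T.add_mem hy hz
      · intro c y _ hy
        have : ι a * c • y = c • (ι a * y) := by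
          rw [Subfield.smul_def, Subfield.smul_def, smul_eq_mul, smul_eq_mul]; ring
        rw [this]
        exact T.smul_mem _ hy
    have hf' := hs₁ f hf
    refine Submodule.span_induction (p := fun f _ => f ∈ T) ?_ ?_ ?_ ?_ hf'
    · intro b hb
      have := step1 1 Fc.one_mem b hb
      simpa using this
    · exact T.zero_mem
    · intro y z _ _ hy hz
      exact T.add_mem hy hz
    · intro c y _ hy
      obtain ⟨a, ha, hac⟩ := Subfield.mem_map.mp c.2
      have : c • y = ι a * y := by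
        rw [Subfield.smul_def, smul_eq_mul, hac]
      rw [this]
      exact stab a ha y hy

/-- **ONE STEP of the tower of base models**, `q`-expansion principle supplied at the top. -/
theorem baseModel_stepQ (h : BaseModel107 Lc Ec Fc R V w x)
    (hs : StepQ ι Lc Ec Fc R V w x Fc' V') :
    BaseModel107 (Lc.map ι) (Ec.map ι) Fc' (R.map ι) V' (ι w) (ι x) where
  charZero := by
    have _h0 : CharZero Ω := h.charZero
    exact charZero_of_injective_ringHom ι.injective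
  R_le := by
    rintro _ ⟨r, hr, rfl⟩
    exact ⟨r, h.R_le hr, rfl⟩
  R_total := by
    rintro _ ⟨e, he, rfl⟩
    rcases h.R_total e he with h1 | h1
    · exact Or.inl ⟨e, h1, rfl⟩
    · exact Or.inr ⟨e⁻¹, h1, map_inv₀ ι e⟩
  w_mem := ⟨w, h.w_mem, rfl⟩
  w_ne_zero := (map_ne_zero ι).mpr h.w_ne_zero
  w_inv_not_mem := by
    rw [← map_inv₀, mem_subring_map_iff]
    exact h.w_inv_not_mem
  w_gen := by
    rintro _ ⟨r, hr, rfl⟩ hr'
    rw [← map_inv₀, mem_subring_map_iff] at hr'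
    rw [← map_inv₀, ← map_mul, mem_subring_map_iff]
    exact h.w_gen r hr hr'
  w_discrete := by
    rintro _ ⟨r, hr, rfl⟩ hr0
    have hr0' : r ≠ 0 := fun h0 => hr0 (by rw [h0, map_zero])
    obtain ⟨n, hn1, hn2⟩ := h.w_discrete r hr hr0'
    refine ⟨n, ?_, ?_⟩
    · rw [← map_inv₀, ← map_pow, ← map_mul, mem_subring_map_iff]
      exact hn1
    · rw [← map_inv₀, ← map_pow, ← map_mul, ← map_inv₀, mem_subring_map_iff]
      exact hn2
  residue_perfect := by
    obtain ⟨p, hp, hp1, hp2⟩ := h.residue_perfect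
    refine ⟨p, hp, ?_, ?_⟩
    · rw [← map_natCast ι p, ← map_inv₀, ← map_mul, mem_subring_map_iff]
      exact hp1
    · rintro _ ⟨r, hr, rfl⟩
      obtain ⟨s, hs1, hs2⟩ := hp2 r hr
      refine ⟨ι s, ⟨s, hs1, rfl⟩, ?_⟩
      rw [← map_pow, ← map_sub, ← map_inv₀, ← map_mul, mem_subring_map_iff]
      exact hs2
  E_le_L := by
    rintro _ ⟨e, he, rfl⟩
    exact ⟨e, h.E_le_L he, rfl⟩
  E_le_F := by
    rintro _ ⟨e, he, rfl⟩
    exact hs.F_le ⟨e, h.E_le_F he, rfl⟩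
  L_algebraic := by
    rintro _ ⟨a, ha, rfl⟩
    exact isAlgebraic_map ι (h.L_algebraic a ha)
  L_algClosed := isAlgClosed_map ι h.L_algClosed
  E_closed_in_F := hs.E_closed
  compositum := hs.compositum
  x_mem := hs.F_le ⟨x, h.x_mem, rfl⟩
  x_transcendental := fun halg => h.x_transcendental (isAlgebraic_of_map ι halg)
  finite := hs.finite
  V_le := hs.V_le
  V_total := hs.V_total
  R_le_V := by
    rintro _ ⟨r, hr, rfl⟩
    exact hs.V_le_V' ⟨r, h.R_le_V hr, rfl⟩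
  w_inv_not_mem_V := hs.w_inv_not_mem
  V_gen := hs.V_gen
  x_mem_V := hs.V_le_V' ⟨x, h.x_mem_V, rfl⟩
  gauss := gauss_stepQ h hs.V_le_V'
  qep_fin := hs.qep_fin
  qep_inf := hs.qep_inf
  separable := hs.separable

/-- **ONE STEP of the tower of good models**, `q`-expansion principle and `unramified` supplied
at the top. -/
theorem goodModel_stepQ (h : GoodModel Lc Ec Fc R V w x S)
    (hs : StepQ ι Lc Ec Fc R V w x Fc' V')
    (hunr : ∀ O : ValuationSubring Ω', (∀ a ∈ Lc.map ι, a ∈ O) → ∀ c ∈ Lc.map ι,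
      c ∉ S.map ⟨ι, ι.injective⟩ → ι x - c ∈ O → (ι x - c)⁻¹ ∉ O →
      ∀ t ∈ O, t⁻¹ ∉ O → t * (ι x - c)⁻¹ ∈ O) :
    GoodModel (Lc.map ι) (Ec.map ι) Fc' (R.map ι) V' (ι w) (ι x) (S.map ⟨ι, ι.injective⟩) := by
  refine (baseModel_stepQ (baseModel_of_goodModel107 h) hs).toGoodModel _ ?_ ?_ ?_ hunr
  · intro s hs'
    obtain ⟨s₀, hs₀, rfl⟩ := Finset.mem_map.mp hs'
    exact ⟨s₀, h.S_mem s₀ hs₀, rfl⟩
  · intro s hs' t ht' hst
    obtain ⟨s₀, hs₀, rfl⟩ := Finset.mem_map.mp hs'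
    obtain ⟨t₀, ht₀, rfl⟩ := Finset.mem_map.mp ht'
    have hne : s₀ ≠ t₀ := fun he => hst (by rw [he])
    exact ⟨(s₀ - t₀)⁻¹, h.S_distinct s₀ hs₀ t₀ ht₀ hne, by
      simp [map_inv₀, map_sub]⟩
  · intro s hs' hs0
    obtain ⟨s₀, hs₀, rfl⟩ := Finset.mem_map.mp hs'
    have hne : s₀ ≠ 0 := fun he => hs0 (by simp [he])
    exact ⟨s₀⁻¹, h.S_unit s₀ hs₀ hne, by simp [map_inv₀]⟩

end Step

section Family

/-- The members of a good family whose constant field contains a given finite set `T₀` of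
constants form a good family. -/
theorem goodFamily_restrict {Lc : Subfield Ω} {x : Ω} {S : Finset Ω} {𝓕 : Set (Model Ω)}
    (h : GoodFamily Lc x S 𝓕) (T₀ : Finset Ω) (hT₀ : ∀ a ∈ T₀, a ∈ Lc) :
    GoodFamily Lc x S {p | p ∈ 𝓕 ∧ ∀ a ∈ T₀, a ∈ p.1} where
  good := fun p hp => h.good p hp.1
  enlarge := by
    classical
    intro p hp T hT
    obtain ⟨p', hp', hle, hmem⟩ := h.enlarge p hp.1 (T ∪ T₀) (by
      intro a ha
      rcases Finset.mem_union.mp ha with ha | ha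
      · exact hT a ha
      · exact hT₀ a ha)
    exact ⟨p', ⟨hp', fun a ha => hmem a (Finset.mem_union_right _ ha)⟩, hle,
      fun a ha => hmem a (Finset.mem_union_left _ ha)⟩

variable {ι : Ω →+* Ω'}

/-- **Lifting a directed family**: if every lifted member is a good model (for a coordinate
`x'` and a branch set `S'` of the top field) and `Φ` is monotone, the lifted family is a good
family. -/
theorem goodFamily_lift {Lc : Subfield Ω} {x : Ω} {S : Finset Ω} {𝓕 : Set (Model Ω)}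
    (h : GoodFamily Lc x S 𝓕) (Φ : Model Ω → Subfield Ω' × Subring Ω') (x' : Ω')
    (S' : Finset Ω')
    (hgood : ∀ p ∈ 𝓕, GoodModel (Lc.map ι) (p.1.map ι) (Φ p).1 (p.2.2.1.map ι) (Φ p).2
      (ι p.2.2.2.2) x' S')
    (hmono : ∀ p ∈ 𝓕, ∀ p' ∈ 𝓕, Model.le p p' → (Φ p).1 ≤ (Φ p').1 ∧ (Φ p).2 ≤ (Φ p').2) :
    GoodFamily (Lc.map ι) x' S' (liftModel ι Φ '' 𝓕) where
  good := by
    rintro _ ⟨p, hp, rfl⟩
    exact hgood p hp
  enlarge := by
    classical
    rintro _ ⟨p, hp, rfl⟩ T hT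
    have hex : ∀ a ∈ T, ∃ a₀ ∈ Lc, ι a₀ = a := fun a ha => hT a ha
    choose! f hf using hex
    obtain ⟨p', hp', hle, hmem⟩ := h.enlarge p hp (T.image f) (by
      intro a ha
      obtain ⟨b, hb, rfl⟩ := Finset.mem_image.mp ha
      exact (hf b hb).1)
    refine ⟨liftModel ι Φ p', ⟨p', hp', rfl⟩, ?_, ?_⟩
    · obtain ⟨h1, h2, h3, h4⟩ := hle
      obtain ⟨m1, m2⟩ := hmono p hp p' hp' ⟨h1, h2, h3, h4⟩
      refine ⟨?_, m1, ?_, m2⟩
      · rintro _ ⟨e, he, rfl⟩
        exact ⟨e, h1 he, rfl⟩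
      · rintro _ ⟨e, he, rfl⟩
        exact ⟨e, h3 he, rfl⟩
    · intro a ha
      refine ⟨f a, hmem _ (Finset.mem_image_of_mem f ha), (hf a ha).2⟩

/-- **ONE STEP for a directed family of good models**, `q`-expansion principle and `unramified`
supplied at the top.  `Φ p = (Fc', V')` is the function field and the Gauss ring over the member
`p`, monotone in `p`. -/
theorem goodFamily_stepQ {Lc : Subfield Ω} {x : Ω} {S : Finset Ω} {𝓕 : Set (Model Ω)}
    (h : GoodFamily Lc x S 𝓕) (Φ : Model Ω → Subfield Ω' × Subring Ω')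
    (hs : ∀ p ∈ 𝓕, StepQ ι Lc p.1 p.2.1 p.2.2.1 p.2.2.2.1 p.2.2.2.2 x (Φ p).1 (Φ p).2)
    (hmono : ∀ p ∈ 𝓕, ∀ p' ∈ 𝓕, Model.le p p' → (Φ p).1 ≤ (Φ p').1 ∧ (Φ p).2 ≤ (Φ p').2)
    (hunr : ∀ O : ValuationSubring Ω', (∀ a ∈ Lc.map ι, a ∈ O) → ∀ c ∈ Lc.map ι,
      c ∉ S.map ⟨ι, ι.injective⟩ → ι x - c ∈ O → (ι x - c)⁻¹ ∉ O →
      ∀ t ∈ O, t⁻¹ ∉ O → t * (ι x - c)⁻¹ ∈ O) :
    GoodFamily (Lc.map ι) (ι x) (S.map ⟨ι, ι.injective⟩) (liftModel ι Φ '' 𝓕) :=
  goodFamily_lift h Φ _ _ (fun p hp => goodModel_stepQ (h.good p hp) (hs p hp) hunr) hmono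

end Family

end Fermat.Agent.S48.Red1
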